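import Fermat.Agent.HighestWeight.Roots

/-!
# Modules generated by a highest weight vector

Such a module is spanned by words in negative root vectors applied to the vector, so its weights lie
below the highest one, and in an irreducible module the highest weight vector is unique up to scale.
-/

set_option autoImplicit false
set_option linter.unusedSectionVars false

noncomputable section

namespace FA.HighestWeight

open LieModule Module LieAlgebra LieAlgebra.IsKilling

attribute [local instance 100] LieRing.ofAssociativeRing

universe u v

variable {K : Type u} {L : Type v} [Field K] [CharZero K] [LieRing L] [LieAlgebra K L]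
  [IsKilling K L] [FiniteDimensional K L]
  {H : LieSubalgebra K L} [H.IsCartanSubalgebra] [IsTriangularizable K H L]
  (b : (rootSystem H).Base)
  {M : Type*} [AddCommGroup M] [Module K M] [LieRingModule L M] [LieModule K L M]

/-- A highest weight vector: a nonzero joint eigenvector of the Cartan subalgebra killed by all
positive root spaces. -/
structure IsHighestWeight (lam : Dual K H) (v : M) : Prop where
  ne_zero : v ≠ 0
  weight : HasWeight lam v
  raise : ∀ α : H.root, b.IsPos α → ∀ x ∈ rootSpace H α.1, ⁅x, v⁆ = 0

/-- A dominant integral functional: natural values on all simple coroots. -/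
def IsDominantIntegral (lam : Dual K H) : Prop :=
  ∀ α ∈ b.support, ∃ n : ℕ, lam (crt α) = (n : K)

/-- The negative roots. -/
abbrev NegRoot : Type _ := {α : H.root // ¬ b.IsPos α}

/-- A word of negative root vectors applied to a vector. -/
def word (v : M) : List (NegRoot b) → M
  | [] => v
  | α :: l => ⁅rootVec α.1, word v l⁆

/-- The weight of a word. -/
def wordWeight (lam : Dual K H) : List (NegRoot b) → Dual K H
  | [] => lam
  | α :: l => wordWeight lam l + rt α.1

variable {b}

lemma hasWeight_word {lam : Dual K H} {v : M} (hv : HasWeight lam v) (l : List (NegRoot b)) :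
    HasWeight (wordWeight b lam l) (word b v l) := by
  induction l with
  | nil => exact hv
  | cons α l ih => exact ih.lie (rootVec_mem α.1)

lemma apply_height_wordWeight (lam : Dual K H) (l : List (NegRoot b)) :
    ∃ k : ℕ, l.length ≤ k ∧
      wordWeight b lam l (heightElt b) = lam (heightElt b) - (k : K) := by
  induction l with
  | nil => exact ⟨0, le_rfl, by simp [wordWeight]⟩
  | cons α l ih =>
    obtain ⟨k, hk, hk'⟩ := ih
    obtain ⟨n, hn, hn'⟩ := exists_height_pos b ((isPos_negRoot_iff b α.1).2 α.2)
    rw [rt_negRoot, LinearMap.neg_apply, neg_eq_iff_eq_neg] at hn'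
    refine ⟨k + n, by simp; omega, ?_⟩
    rw [wordWeight, LinearMap.add_apply, hk', hn', Nat.cast_add]
    ring

lemma eq_nil_of_wordWeight_eq {lam : Dual K H} {l : List (NegRoot b)}
    (h : wordWeight b lam l = lam) : l = [] := by
  obtain ⟨k, hk, hk'⟩ := apply_height_wordWeight (b := b) lam l
  rw [h] at hk'
  have h0 : ((k : ℕ) : K) = 0 := by linear_combination hk'
  have : k = 0 := Nat.cast_eq_zero.1 h0
  exact List.length_eq_zero_iff.1 (by omega)

variable (b) in
/-- The span of the words. -/
def wordSpan (v : M) : Submodule K M := Submodule.span K (Set.range (word b v))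

lemma word_mem (v : M) (l : List (NegRoot b)) : word b v l ∈ wordSpan b v :=
  Submodule.subset_span ⟨l, rfl⟩

lemma rootVec_lie_mem (v : M) (α : NegRoot b) {y : M} (hy : y ∈ wordSpan b v) :
    ⁅rootVec α.1, y⁆ ∈ wordSpan b v := by
  induction hy using Submodule.span_induction with
  | mem y hy =>
    obtain ⟨l, rfl⟩ := hy
    exact word_mem v (α :: l)
  | zero => simp
  | add x y _ _ hx hy => rw [lie_add]; exact add_mem hx hy
  | smul c x _ hx => rw [lie_smul]; exact Submodule.smul_mem _ c hx

lemma lie_word_mem {lam : Dual K H} {v : M} (hv : IsHighestWeight b lam v) (l : List (NegRoot b)) :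
    ∀ x : L, ⁅x, word b v l⁆ ∈ wordSpan b v := by
  induction l with
  | nil =>
    have htop := eq_top_of_cartan_of_rootSpace
      (p := (wordSpan b v).comap ((toEnd K L M).toLinearMap.flip v))
      (fun h => by
        show ⁅(h : L), v⁆ ∈ wordSpan b v
        rw [hv.weight h]
        exact Submodule.smul_mem _ _ (word_mem v []))
      (fun α x hx => by
        show ⁅x, v⁆ ∈ wordSpan b v
        by_cases hα : b.IsPos α
        · rw [hv.raise α hα x hx]
          exact zero_mem _
        · obtain ⟨c, rfl⟩ := exists_smul_rootVec hx
          rw [smul_lie]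
          exact Submodule.smul_mem _ _ (word_mem v [⟨α, hα⟩]))
    intro x
    exact (Submodule.eq_top_iff'.1 htop x : _)
  | cons α l ih =>
    intro x
    rw [word, leibniz_lie]
    exact add_mem (ih _) (rootVec_lie_mem v α (ih x))

/-- The submodule generated by a highest weight vector. -/
def cyclic {lam : Dual K H} {v : M} (hv : IsHighestWeight b lam v) : LieSubmodule K L M where
  toSubmodule := wordSpan b v
  lie_mem := fun {x y} (hy : y ∈ wordSpan b v) => by
    show ⁅x, y⁆ ∈ wordSpan b v
    induction hy using Submodule.span_induction with
    | mem y hy =>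
      obtain ⟨l, rfl⟩ := hy
      exact lie_word_mem hv l x
    | zero => simp
    | add y z _ _ hy hz => rw [lie_add]; exact add_mem hy hz
    | smul c y _ hy => rw [lie_smul]; exact Submodule.smul_mem _ c hy

lemma mem_wordSpan_of_irreducible [IsIrreducible K L M] {lam : Dual K H} {v : M}
    (hv : IsHighestWeight b lam v) (x : M) : x ∈ wordSpan b v := by
  rcases IsSimpleOrder.eq_bot_or_eq_top (cyclic hv) with h | h
  · have hmem : v ∈ cyclic hv := word_mem v []
    rw [h, LieSubmodule.mem_bot] at hmem
    exact absurd hmem hv.ne_zero
  · show x ∈ cyclic hv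
    rw [h]
    exact LieSubmodule.mem_top x

/-- A weight vector in the span of the words is a combination of words of the same weight. -/
lemma mem_span_word_of_weight {lam μ : Dual K H} {v x : M} (hv : HasWeight lam v)
    (hx : HasWeight μ x) (hmem : x ∈ wordSpan b v) :
    x ∈ Submodule.span K (word b v '' {l | wordWeight b lam l = μ}) := by
  classical
  obtain ⟨c, rfl⟩ := (Finsupp.mem_span_range_iff_exists_finsupp).1 hmem
  suffices key : ∀ (s : Finset (List (NegRoot b))) (c : List (NegRoot b) → K) (x : M),
      HasWeight μ x → x = ∑ l ∈ s, c l • word b v l →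
      x ∈ Submodule.span K (word b v '' {l | wordWeight b lam l = μ}) from
    key c.support c _ hx rfl
  intro s
  induction s using Finset.induction_on with
  | empty =>
    intro c x _ h
    rw [h, Finset.sum_empty]
    exact zero_mem _
  | insert a s ha ih =>
    intro c x hx h
    rw [Finset.sum_insert ha] at h
    by_cases hwa : wordWeight b lam a = μ
    · have hrest := ih c (x - c a • word b v a) (fun z => by
        rw [lie_sub, lie_smul, hx z, hasWeight_word hv a z, hwa, smul_sub, smul_comm])
        (by rw [h, add_sub_cancel_left])
      simpa using add_mem hrest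
        (Submodule.smul_mem _ (c a) (Submodule.subset_span ⟨a, hwa, rfl⟩))
    · obtain ⟨z, hz⟩ : ∃ z, wordWeight b lam a z ≠ μ z := by
        by_contra hcon
        push Not at hcon
        exact hwa (LinearMap.ext hcon)
      set t := μ z - wordWeight b lam a z with ht
      have ht0 : t ≠ 0 := sub_ne_zero.2 (Ne.symm hz)
      have key : t • x =
          ∑ l ∈ s, ((wordWeight b lam l z - wordWeight b lam a z) * c l) • word b v l := by
        rw [ht, sub_smul, ← hx z, h, lie_add, lie_smul, hasWeight_word hv a z, lie_sum, smul_add,
          Finset.smul_sum, smul_comm (wordWeight b lam a z) (c a), add_sub_add_left_eq_sub,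
          ← Finset.sum_sub_distrib]
        refine Finset.sum_congr rfl fun l _ => ?_
        rw [lie_smul, hasWeight_word hv l z, smul_smul, smul_smul, ← sub_smul]
        congr 1
        ring
      have := ih _ (t • x) (fun h' => by rw [lie_smul, hx h', smul_comm]) key
      simpa [ht0] using Submodule.smul_mem _ t⁻¹ this

/-- A nonzero weight vector of a cyclic module has the weight of some word. -/
lemma exists_word_of_weight {lam μ : Dual K H} {v x : M} (hv : HasWeight lam v)
    (hx : HasWeight μ x) (hmem : x ∈ wordSpan b v) (hx0 : x ≠ 0) :
    ∃ l : List (NegRoot b), wordWeight b lam l = μ := by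
  by_contra hcon
  push Not at hcon
  apply hx0
  have := mem_span_word_of_weight hv hx hmem
  rw [show {l : List (NegRoot b) | wordWeight b lam l = μ} = ∅ from
    Set.eq_empty_iff_forall_notMem.2 hcon, Set.image_empty, Submodule.span_empty,
    Submodule.mem_bot] at this
  exact this

/-- The top weight space of a cyclic module is a line. -/
lemma exists_smul_of_weight {lam : Dual K H} {v x : M} (hv : HasWeight lam v)
    (hx : HasWeight lam x) (hmem : x ∈ wordSpan b v) : ∃ c : K, c • v = x := by
  have := mem_span_word_of_weight hv hx hmem
  rw [show {l : List (NegRoot b) | wordWeight b lam l = lam} = {[]} from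
    Set.ext fun l => ⟨eq_nil_of_wordWeight_eq, fun h => by rw [Set.mem_singleton_iff] at h; subst h; rfl⟩,
    Set.image_singleton] at this
  exact Submodule.mem_span_singleton.1 this

/-- In an irreducible module the highest weight vector is unique up to scale. -/
theorem highest_weight_vector_unique [IsIrreducible K L M] {lam μ : Dual K H} {v w : M}
    (hv : IsHighestWeight b lam v) (hw : IsHighestWeight b μ w) :
    μ = lam ∧ ∃ c : K, c • v = w := by
  obtain ⟨l, hl⟩ := exists_word_of_weight hv.weight hw.weight (mem_wordSpan_of_irreducible hv w)
    hw.ne_zero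
  obtain ⟨l', hl'⟩ := exists_word_of_weight hw.weight hv.weight (mem_wordSpan_of_irreducible hw v)
    hv.ne_zero
  obtain ⟨k, hk, hk'⟩ := apply_height_wordWeight (b := b) lam l
  obtain ⟨k', -, hk''⟩ := apply_height_wordWeight (b := b) μ l'
  rw [hl] at hk'
  rw [hl', hk'] at hk''
  have : ((k + k' : ℕ) : K) = 0 := by push_cast; linear_combination hk''
  have hk0 : l = [] := by
    rw [Nat.cast_eq_zero] at this
    exact List.length_eq_zero_iff.1 (by omega)
  subst hk0
  have hμ : μ = lam := hl.symm
  exact ⟨hμ, exists_smul_of_weight hv.weight (hμ ▸ hw.weight) (mem_wordSpan_of_irreducible hv w)⟩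

end FA.HighestWeight
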