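import Fermat.Agent.HighestWeight.Integrable

/-!
# Finite-dimensional irreducible modules have a dominant integral highest weight

Long products of positive root vectors vanish, so some vector is killed by all of them, and on such
vectors every simple coroot has an eigenvector with natural eigenvalue.
-/

set_option autoImplicit false
set_option linter.unusedSectionVars false

noncomputable section

namespace FA.HighestWeight

open LieModule Module LieAlgebra LieAlgebra.IsKilling

attribute [local instance 100] LieRing.ofAssociativeRing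

universe u v

variable {K : Type u} {L : Type v} [Field K] [CharZero K] [LieRing L] [LieAlgebra K L]
  [IsKilling K L] [FiniteDimensional K L]
  {H : LieSubalgebra K L} [H.IsCartanSubalgebra] [IsTriangularizable K H L]
  (b : (rootSystem H).Base)
  {M : Type*} [AddCommGroup M] [Module K M] [LieRingModule L M] [LieModule K L M]

/-- The vectors killed by the positive root spaces. -/
def primSpace : Submodule K M where
  carrier := {y | ∀ α : H.root, b.IsPos α → ⁅rootVec α, y⁆ = 0}
  add_mem' := fun {x y} hx hy α hα => by rw [lie_add, hx α hα, hy α hα, add_zero]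
  zero_mem' := fun α _ => lie_zero _
  smul_mem' := fun c x hx α hα => by rw [lie_smul, hx α hα, smul_zero]

lemma raise_of_mem_primSpace {y : M} (hy : y ∈ primSpace b (M := M)) {α : H.root} (hα : b.IsPos α)
    {x : L} (hx : x ∈ rootSpace H α.1) : ⁅x, y⁆ = 0 := by
  obtain ⟨c, rfl⟩ := exists_smul_rootVec hx
  rw [smul_lie, hy α hα, smul_zero]

lemma cartan_lie_mem_primSpace (h : H) {y : M} (hy : y ∈ primSpace b (M := M)) :
    ⁅(h : L), y⁆ ∈ primSpace b (M := M) := fun α hα => by
  rw [leibniz_lie, ← lie_skew, lie_root_vector (rootVec_mem α) h, neg_lie, smul_lie, hy α hα,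
    lie_zero, smul_zero, neg_zero, add_zero]

variable [FiniteDimensional K M] [Nontrivial M]

lemma primSpace_ne_bot : primSpace b (M := M) ≠ ⊥ := by
  obtain ⟨N, hN⟩ := exists_prod_eq_zero (toEnd K L M (heightElt b : L))
  let T : List {α : H.root // b.IsPos α} → Module.End K M :=
    fun l => (l.map fun α => toEnd K L M (rootVec α.1)).prod
  suffices key : ∀ n, ∀ y : M, y ≠ 0 → (∀ l, n ≤ l.length → T l y = 0) →
      ∃ w : M, w ≠ 0 ∧ w ∈ primSpace b (M := M) by
    obtain ⟨y, hy⟩ := exists_ne (0 : M)
    obtain ⟨w, hw, hw'⟩ := key N y hy fun l hl => by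
      rw [show T l = 0 from hN _ ?_ (by rwa [List.length_map]), LinearMap.zero_apply]
      intro A hA
      obtain ⟨α, -, rfl⟩ := List.mem_map.1 hA
      obtain ⟨k, hk, hk'⟩ := exists_height_pos b α.2
      refine ⟨k, hk, ?_⟩
      rw [← LieRing.of_associative_ring_bracket, ← LieHom.map_lie,
        lie_root_vector (rootVec_mem α.1), map_smul, hk']
    exact (Submodule.ne_bot_iff _).2 ⟨w, hw', hw⟩
  intro n
  induction n with
  | zero =>
    intro y hy h
    exact absurd (by simpa [T] using h [] le_rfl) hy
  | succ n ih =>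
    intro y hy h
    by_cases hp : y ∈ primSpace b (M := M)
    · exact ⟨y, hy, hp⟩
    · simp only [primSpace, Submodule.mem_mk, AddSubmonoid.mem_mk, AddSubsemigroup.mem_mk,
        Set.mem_setOf_eq, not_forall] at hp
      obtain ⟨α, hα, hne⟩ := hp
      refine ih _ hne fun l hl => ?_
      have := h (l ++ [⟨α, hα⟩]) (by simp; omega)
      simpa [T] using this

/-- Every finite-dimensional module has a highest weight vector with dominant integral weight. -/
theorem exists_highest_weight_vector :
    ∃ (lam : Dual K H) (v : M), IsDominantIntegral b lam ∧ IsHighestWeight b lam v := by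
  classical
  have step : ∀ s : Finset H.root, s ⊆ b.support → ∃ v ∈ primSpace b (M := M), v ≠ 0 ∧
      ∀ β ∈ s, ∃ n : ℕ, ⁅(crt β : L), v⁆ = (n : K) • v := by
    intro s
    induction s using Finset.induction_on with
    | empty =>
      intro _
      obtain ⟨v, hv, hv0⟩ := (primSpace b (M := M)).exists_mem_ne_zero_of_ne_bot (primSpace_ne_bot b)
      exact ⟨v, hv, hv0, by simp⟩
    | insert a s ha ih =>
      intro hs
      rw [Finset.insert_subset_iff] at hs
      obtain ⟨v, hv, hv0, heig⟩ := ih hs.2
      choose n hn using heig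
      let S : Submodule K M := primSpace b (M := M) ⊓
        ⨅ β : {β // β ∈ s}, Module.End.eigenspace (toEnd K L M (crt β.1 : L)) (n β.1 β.2 : K)
      have hmem : ∀ y, y ∈ S ↔ y ∈ primSpace b (M := M) ∧
          ∀ β (hβ : β ∈ s), ⁅(crt β : L), y⁆ = (n β hβ : K) • y := fun y => by
        simp only [S, Submodule.mem_inf, Submodule.mem_iInf, Module.End.mem_eigenspace_iff,
          toEnd_apply_apply, Subtype.forall]
      obtain ⟨e, f, t, he, -⟩ := exists_triple a
      obtain ⟨N, hN⟩ := exists_pow_e_eq_zero (K := K) (M := M) t.symm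
      obtain ⟨m, z, hz, hz0, hzh⟩ := exists_nat_eigen t S
        ((Submodule.ne_bot_iff _).2 ⟨v, (hmem v).2 ⟨hv, hn⟩, hv0⟩)
        (fun y hy => by
          rw [hmem] at hy ⊢
          refine ⟨cartan_lie_mem_primSpace b _ hy.1, fun β hβ => ?_⟩
          have h0 : ⁅crt β, crt a⁆ = 0 := trivial_lie_zero _ _ _ _
          rw [leibniz_lie, hy.2 β hβ, lie_smul,
            show ⁅(crt β : L), (crt a : L)⁆ = 0 from congrArg Subtype.val h0, zero_lie, zero_add])
        (fun y hy => raise_of_mem_primSpace b ((hmem y).1 hy).1
          (RootPairing.Base.isPos_of_mem_support hs.1) he)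
        (fun y _ => ⟨N, by rw [hN, LinearMap.zero_apply]⟩)
      rw [hmem] at hz
      refine ⟨z, hz.1, hz0, fun β hβ => ?_⟩
      rcases Finset.mem_insert.1 hβ with rfl | hβ
      · exact ⟨m, hzh⟩
      · exact ⟨_, hz.2 β hβ⟩
  obtain ⟨v, hv, hv0, heig⟩ := step b.support subset_rfl
  choose n hn using heig
  let lam : Dual K H := b.toCoweightBasis.constr K fun i => (n i.1 i.2 : K)
  have hlam : ∀ i : b.support, lam (crt i.1) = (n i.1 i.2 : K) := fun i => by
    rw [show crt i.1 = b.toCoweightBasis i from (b.toCoweightBasis_apply i).symm,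
      Basis.constr_basis]
  refine ⟨lam, v, fun α hα => ⟨n α hα, hlam ⟨α, hα⟩⟩, hv0, ?_,
    fun α hα x hx => raise_of_mem_primSpace b hv hα hx⟩
  intro h
  let A : H →ₗ[K] M := (toEnd K L M).toLinearMap.flip v ∘ₗ H.toSubmodule.subtype
  let B : H →ₗ[K] M := lam.smulRight v
  have hAB : A = B := b.toCoweightBasis.ext fun i => by
    show ⁅((b.toCoweightBasis i : H) : L), v⁆ = lam (b.toCoweightBasis i) • v
    rw [show b.toCoweightBasis i = crt i.1 from b.toCoweightBasis_apply i, hlam, hn]
  exact LinearMap.congr_fun hAB h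

end FA.HighestWeight
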