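import Fermat.Agent.HighestWeight.Integrable

/-!
# Irreducible modules with dominant integral highest weight are finite-dimensional

The sum of the squares of the values on all coroots is invariant under reflections, and on a
dominant weight below the highest weight it is at most the value at the highest weight. So only
finitely many weights occur.
-/

set_option autoImplicit false
set_option linter.unusedSectionVars false

noncomputable section

namespace FA.HighestWeight

open LieModule Module LieAlgebra LieAlgebra.IsKilling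

universe u v

variable {K : Type u} {L : Type v} [Field K] [CharZero K] [LieRing L] [LieAlgebra K L]
  [IsKilling K L] [FiniteDimensional K L]
  {H : LieSubalgebra K L} [H.IsCartanSubalgebra] [IsTriangularizable K H L]

/-- The invariant form. -/
def wform (μ ν : Dual K H) : K := ∑ α : H.root, μ (crt α) * ν (crt α)

/-- Functionals with integral values on all coroots. -/
def IsWeightLattice (μ : Dual K H) : Prop := ∀ α : H.root, ∃ z : ℤ, μ (crt α) = (z : K)

/-- Nonnegative rational scalars. -/
def IsNonnegRat (x : K) : Prop := ∃ q : ℚ, 0 ≤ q ∧ (q : K) = x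

lemma IsNonnegRat.add {x y : K} (hx : IsNonnegRat x) (hy : IsNonnegRat y) :
    IsNonnegRat (x + y) := by
  obtain ⟨p, hp, rfl⟩ := hx
  obtain ⟨q, hq, rfl⟩ := hy
  exact ⟨p + q, add_nonneg hp hq, by push_cast; rfl⟩

lemma wform_add_left (μ₁ μ₂ ν : Dual K H) : wform (μ₁ + μ₂) ν = wform μ₁ ν + wform μ₂ ν := by
  simp [wform, add_mul, Finset.sum_add_distrib]

lemma wform_add_right (μ ν₁ ν₂ : Dual K H) : wform μ (ν₁ + ν₂) = wform μ ν₁ + wform μ ν₂ := by
  simp [wform, mul_add, Finset.sum_add_distrib]

lemma wform_comm (μ ν : Dual K H) : wform μ ν = wform ν μ :=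
  Finset.sum_congr rfl fun _ _ => mul_comm _ _

lemma isWeightLattice_rt (β : H.root) : IsWeightLattice (rt β) := fun α =>
  ⟨_, apply_coroot_eq_cast α.1 β.1⟩

lemma IsWeightLattice.add {μ ν : Dual K H} (hμ : IsWeightLattice μ) (hν : IsWeightLattice ν) :
    IsWeightLattice (μ + ν) := fun α => by
  obtain ⟨a, ha⟩ := hμ α
  obtain ⟨c, hc⟩ := hν α
  exact ⟨a + c, by rw [LinearMap.add_apply, ha, hc, Int.cast_add]⟩

lemma IsWeightLattice.neg {μ : Dual K H} (hμ : IsWeightLattice μ) : IsWeightLattice (-μ) :=
  fun α => by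
    obtain ⟨a, ha⟩ := hμ α
    exact ⟨-a, by rw [LinearMap.neg_apply, ha, Int.cast_neg]⟩

lemma IsWeightLattice.isNonnegRat_wform {μ : Dual K H} (hμ : IsWeightLattice μ) :
    IsNonnegRat (wform μ μ) := by
  choose z hz using hμ
  exact ⟨∑ α, ((z α * z α : ℤ) : ℚ), Finset.sum_nonneg fun α _ => by
    exact_mod_cast mul_self_nonneg (z α), by simp [wform, hz]⟩

/-- The reflection in a root. -/
def refl' (α : H.root) (μ : Dual K H) : Dual K H := μ - μ (crt α) • rt α

lemma refl'_apply_crt (α β : H.root) (μ : Dual K H) :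
    refl' α μ (crt β) = μ (crt ((rootSystem H).reflectionPerm α β)) := by
  have h : crt ((rootSystem H).reflectionPerm α β) = crt β - rt α (crt β) • crt α :=
    (rootSystem H).coroot_reflectionPerm α β
  rw [h, refl', LinearMap.sub_apply, LinearMap.smul_apply, map_sub, map_smul, smul_eq_mul,
    smul_eq_mul, mul_comm]

lemma wform_refl' (α : H.root) (μ ν : Dual K H) :
    wform (refl' α μ) (refl' α ν) = wform μ ν := by
  simp only [wform, refl'_apply_crt]
  exact Equiv.sum_comp ((rootSystem H).reflectionPerm α) (fun β => μ (crt β) * ν (crt β))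

lemma two_mul_wform_rt (α : H.root) (μ : Dual K H) :
    2 * wform μ (rt α) = μ (crt α) * wform (rt α) (rt α) := by
  have h := wform_refl' α μ (rt α)
  have h1 : refl' α (rt α) = (-1 : K) • rt α := by
    rw [refl', rt_crt_self]; module
  rw [h1, refl'] at h
  simp only [wform, LinearMap.sub_apply, LinearMap.smul_apply, smul_eq_mul, sub_mul,
    Finset.sum_sub_distrib] at h ⊢
  rw [Finset.mul_sum, Finset.mul_sum]
  rw [← sub_eq_zero, ← Finset.sum_sub_distrib] at h ⊢
  rw [← Finset.sum_sub_distrib] at h
  rw [← neg_eq_zero, ← Finset.sum_neg_distrib, ← h]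
  exact Finset.sum_congr rfl fun β _ => by ring

variable (b : (rootSystem H).Base)

lemma IsDominantIntegral.isWeightLattice {b : (rootSystem H).Base} {lam : Dual K H}
    (h : IsDominantIntegral b lam) : IsWeightLattice lam := by
  intro α
  have key : ∀ x ∈ Submodule.span ℤ (crt '' (b.support : Set H.root)), ∃ z : ℤ, lam x = (z : K) := by
    intro x hx
    induction hx using Submodule.span_induction with
    | mem x hx =>
      obtain ⟨β, hβ, rfl⟩ := hx
      obtain ⟨n, hn⟩ := h β hβ
      exact ⟨n, by rw [hn, Int.cast_natCast]⟩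
    | zero => exact ⟨0, by simp⟩
    | add x y _ _ hx hy =>
      obtain ⟨a, ha⟩ := hx
      obtain ⟨c, hc⟩ := hy
      exact ⟨a + c, by rw [map_add, ha, hc, Int.cast_add]⟩
    | smul c x _ hx =>
      obtain ⟨a, ha⟩ := hx
      exact ⟨c * a, by rw [map_zsmul, ha, zsmul_eq_mul, Int.cast_mul]⟩
  exact key _ (crt_mem_span b α)

lemma isWeightLattice_wordWeight {lam : Dual K H} (h : IsWeightLattice lam)
    (l : List (NegRoot b)) : IsWeightLattice (wordWeight b lam l) := by
  induction l with
  | nil => exact h
  | cons α l ih => exact ih.add (isWeightLattice_rt _)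

lemma isNonnegRat_wform_pos {μ : Dual K H} (hμ : IsDominantIntegral b μ) {β : H.root}
    (hβ : b.IsPos β) : IsNonnegRat (wform μ (rt β)) := by
  refine hβ.induction_on_add (p := fun β => IsNonnegRat (wform μ (rt β))) ?_ ?_
  · intro α hα
    obtain ⟨n, hn⟩ := hμ α hα
    obtain ⟨q, hq, hq'⟩ := (isWeightLattice_rt α).isNonnegRat_wform
    refine ⟨n * q / 2, by positivity, ?_⟩
    have h2 := two_mul_wform_rt α μ
    rw [hn, ← hq'] at h2
    push_cast
    linear_combination -(h2 / 2)
  · intro i j k hk hi hj
    obtain ⟨n, hn⟩ := hμ j hj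
    obtain ⟨q, hq, hq'⟩ := (isWeightLattice_rt j).isNonnegRat_wform
    have hj' : IsNonnegRat (wform μ (rt j)) := by
      refine ⟨n * q / 2, by positivity, ?_⟩
      have h2 := two_mul_wform_rt j μ
      rw [hn, ← hq'] at h2
      push_cast
      linear_combination -(h2 / 2)
    rw [show rt k = rt i + rt j from hk, wform_add_right]
    exact hi.add hj'

lemma wform_le_of_dominant {lam μ : Dual K H} (hlam : IsWeightLattice lam)
    (hμ : IsDominantIntegral b μ) {l : List (NegRoot b)} (hl : wordWeight b lam l = μ) :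
    ∃ q : ℚ, 0 ≤ q ∧ wform lam lam = wform μ μ + q := by
  have hγ : ∀ l : List (NegRoot b), IsNonnegRat (wform μ (lam - wordWeight b lam l)) := by
    intro l
    induction l with
    | nil => exact ⟨0, le_rfl, by simp [wordWeight, wform]⟩
    | cons α l ih =>
      rw [show lam - wordWeight b lam (α :: l) = (lam - wordWeight b lam l) + rt (negRoot α.1) by
        rw [wordWeight, rt_negRoot]; abel, wform_add_right]
      exact ih.add (isNonnegRat_wform_pos b hμ ((isPos_negRoot_iff b α.1).2 α.2))
  have h1 := hγ l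
  rw [hl] at h1
  have h2 : IsNonnegRat (wform (lam - μ) (lam - μ)) := by
    rw [sub_eq_add_neg]
    exact (hlam.add hμ.isWeightLattice.neg).isNonnegRat_wform
  obtain ⟨q, hq, hq'⟩ := h1.add (h1.add h2)
  refine ⟨q, hq, ?_⟩
  rw [hq']
  nth_rw 1 2 [← add_sub_cancel μ lam]
  rw [wform_add_left, wform_add_right, wform_add_right, wform_comm (lam - μ) μ]
  ring

variable {b}
variable {M : Type*} [AddCommGroup M] [Module K M] [LieRingModule L M] [LieModule K L M]
  [IsIrreducible K L M]

/-- The form of every weight is at most that of the highest weight. -/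
lemma wform_le {lam : Dual K H} {v : M} (hv : IsHighestWeight b lam v)
    (hdom : IsDominantIntegral b lam) (k : ℕ) :
    ∀ (μ : Dual K H) (x : M), x ≠ 0 → HasWeight μ x →
      μ (heightElt b) = lam (heightElt b) - (k : K) →
      ∃ q : ℚ, 0 ≤ q ∧ wform lam lam = wform μ μ + q := by
  induction k using Nat.strong_induction_on with
  | _ k ih =>
    intro μ x hx0 hx hk
    obtain ⟨l, hl⟩ := exists_word_of_weight hv.weight hx (mem_wordSpan_of_irreducible hv x) hx0
    by_cases hμ : IsDominantIntegral b μ
    · exact wform_le_of_dominant b hdom.isWeightLattice hμ hl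
    · simp only [IsDominantIntegral, not_forall, not_exists] at hμ
      obtain ⟨α, hα, hneg⟩ := hμ
      obtain ⟨z, hz⟩ := isWeightLattice_wordWeight b hdom.isWeightLattice l α
      rw [hl] at hz
      obtain ⟨n, rfl | rfl⟩ := Int.eq_nat_or_neg z
      · exact absurd (by rw [hz, Int.cast_natCast]) (hneg n)
      rw [Int.cast_neg, Int.cast_natCast] at hz
      have hn : n ≠ 0 := by
        rintro rfl
        exact hneg 0 (by rw [hz]; simp)
      obtain ⟨y, hy0, hy⟩ := exists_reflect_up hv hdom hα hx hx0 hz
      obtain ⟨l', hl'⟩ :=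
        exists_word_of_weight hv.weight hy (mem_wordSpan_of_irreducible hv y) hy0
      obtain ⟨k', -, hk'⟩ := apply_height_wordWeight (b := b) lam l'
      rw [hl'] at hk'
      have hkk : k = k' + n := by
        have : (k : K) = ((k' + n : ℕ) : K) := by
          rw [LinearMap.add_apply, LinearMap.smul_apply, apply_heightElt_of_mem b hα, hk,
            smul_eq_mul, mul_one] at hk'
          push_cast
          linear_combination -hk'
        exact_mod_cast this
      obtain ⟨q, hq, hq'⟩ := ih k' (by omega) _ y hy0 hy hk'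
      refine ⟨q, hq, ?_⟩
      rw [hq', show μ + (n : K) • rt α = refl' α μ by rw [refl', hz]; module, wform_refl']

/-- An irreducible module with dominant integral highest weight is finite-dimensional. -/
theorem finiteDimensional_of_dominant {lam : Dual K H} {v : M} (hv : IsHighestWeight b lam v)
    (hdom : IsDominantIntegral b lam) : FiniteDimensional K M := by
  classical
  obtain ⟨Q, -, hQ⟩ := hdom.isWeightLattice.isNonnegRat_wform
  set B : ℤ := ⌈Q⌉
  let Ω : Set (Dual K H) :=
    {μ | ∀ α : H.root, μ (crt α) ∈ (fun z : ℤ => (z : K)) '' (Finset.Icc (-B) B : Finset ℤ)}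
  have hΩ : Ω.Finite := by
    have hinj : Set.InjOn (fun (μ : Dual K H) (α : H.root) => μ (crt α)) Ω := fun μ _ ν _ h =>
      eq_of_forall_crt b fun α _ => congr_fun h α
    refine Set.Finite.of_finite_image ?_ hinj
    refine (Set.Finite.pi' fun _ : H.root =>
      ((Finset.Icc (-B) B).finite_toSet.image (fun z : ℤ => (z : K)))).subset ?_
    rintro _ ⟨μ, hμ, rfl⟩ α
    exact hμ α
  have hlen : ∀ μ : Dual K H, ∃ N : ℕ, ∀ l : List (NegRoot b),
      wordWeight b lam l = μ → l.length ≤ N := by
    intro μ
    by_cases h : ∃ l₀ : List (NegRoot b), wordWeight b lam l₀ = μ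
    · obtain ⟨l₀, h₀⟩ := h
      obtain ⟨k₀, -, hk₀⟩ := apply_height_wordWeight (b := b) lam l₀
      refine ⟨k₀, fun l hl => ?_⟩
      obtain ⟨k, hk, hk'⟩ := apply_height_wordWeight (b := b) lam l
      rw [hl] at hk'
      rw [h₀, hk', sub_right_inj, Nat.cast_inj] at hk₀
      omega
    · exact ⟨0, fun l hl => absurd ⟨l, hl⟩ h⟩
  choose N hN using hlen
  obtain ⟨N₀, hN₀⟩ := (hΩ.image N).bddAbove
  have hbig : ∀ l : List (NegRoot b), N₀ < l.length → word b v l = 0 := by
    intro l hl
    by_contra h0
    obtain ⟨k, -, hk⟩ := apply_height_wordWeight (b := b) lam l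
    obtain ⟨q, hq, hq'⟩ := wform_le hv hdom k _ _ h0 (hasWeight_word hv.weight l) hk
    have hlat := isWeightLattice_wordWeight b hdom.isWeightLattice l
    have hmem : wordWeight b lam l ∈ Ω := by
      intro α
      choose z hz using hlat
      refine ⟨z α, ?_, (hz α).symm⟩
      have hsum : wform (wordWeight b lam l) (wordWeight b lam l) =
          (((∑ β, z β * z β : ℤ) : ℚ) : K) := by
        simp [wform, hz]
      rw [hsum, ← hQ, ← Rat.cast_add, Rat.cast_inj] at hq'
      have h1 : ((z α * z α : ℤ) : ℚ) ≤ (B : ℚ) := by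
        refine le_trans ?_ (Int.le_ceil Q)
        rw [hq']
        have : ((z α * z α : ℤ) : ℚ) ≤ ((∑ β, z β * z β : ℤ) : ℚ) := by
          exact_mod_cast Finset.single_le_sum (f := fun β => z β * z β)
            (fun β _ => mul_self_nonneg (z β)) (Finset.mem_univ α)
        linarith
      have h2 : z α * z α ≤ B := by exact_mod_cast h1
      rw [Finset.coe_Icc, Set.mem_Icc]
      exact ⟨by nlinarith, by nlinarith⟩
    have := hN _ l rfl
    have := hN₀ ⟨_, hmem, rfl⟩
    omega
  have hfin : Finite (NegRoot b) := inferInstance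
  refine Module.finite_def.2 ⟨((List.finite_length_le (NegRoot b) N₀).image (word b v)).toFinset, ?_⟩
  rw [Set.Finite.coe_toFinset, eq_top_iff]
  intro x _
  refine (Submodule.span_le.2 ?_) (mem_wordSpan_of_irreducible hv x)
  rintro _ ⟨l, rfl⟩
  by_cases hl : l.length ≤ N₀
  · exact Submodule.subset_span ⟨l, hl, rfl⟩
  · rw [hbig l (by omega)]
    exact zero_mem _

end FA.HighestWeight
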