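import Fermat.Agent.PBW.Basis

/-!
# Inducing a character from a subalgebra

By the Poincaré–Birkhoff–Witt theorem a character of a subalgebra with a complement extends to a
linear functional on the enveloping algebra that is multiplicative on the right of it, so the left
ideal it generates is proper.
-/

set_option autoImplicit false
set_option linter.unusedSectionVars false

noncomputable section

namespace FA.HighestWeight

open Module UniversalEnvelopingAlgebra FA.PBW

attribute [local instance 100] LieRing.ofAssociativeRing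

section

variable {K L : Type*} [CommRing K] [LieRing L] [LieAlgebra K L] {ι₁ ι₂ : Type*} [LinearOrder ι₁]
  [LinearOrder ι₂] (B : LieSubalgebra K L) (bB : Basis ι₂ K B) (bL : Basis (ι₁ ⊕ₗ ι₂) K L)

lemma monomial_inr (hb : ∀ j, bL (toLex (Sum.inr j)) = (bB j : L)) (c : Multiset ι₂) :
    UniversalEnvelopingAlgebra.lift K ((UniversalEnvelopingAlgebra.ι K).comp B.incl)
        (monomial bB c) =
      monomial bL (c.map fun j => toLex (Sum.inr j)) := by
  have hsort : (c.map fun j => toLex (Sum.inr j : ι₁ ⊕ ι₂)).sort (· ≤ ·) =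
      (c.sort (· ≤ ·)).map fun j => toLex (Sum.inr j) := by
    refine List.Perm.eq_of_pairwise' (Multiset.pairwise_sort _ _) ?_ ?_
    · exact (Multiset.pairwise_sort c _).map _ fun a b hab => Sum.Lex.inr_le_inr_iff.2 hab
    · rw [← Multiset.coe_eq_coe, Multiset.sort_eq, ← Multiset.map_coe, Multiset.sort_eq]
  rw [monomial, monomial, map_list_prod, hsort, List.map_map, List.map_map]
  congr 1
  refine List.map_congr_left fun j _ => ?_
  simp only [Function.comp_apply]
  rw [lift_ι_apply, hb]
  rfl

lemma monomial_add (a : Multiset ι₁) (c : Multiset ι₂) :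
    monomial bL (a.map (fun i => toLex (Sum.inl i)) + c.map fun j => toLex (Sum.inr j)) =
      monomial bL (a.map fun i => toLex (Sum.inl i)) *
        monomial bL (c.map fun j => toLex (Sum.inr j)) := by
  set A := a.map (fun i => toLex (Sum.inl i : ι₁ ⊕ ι₂)) with hA
  set C := c.map (fun j => toLex (Sum.inr j : ι₁ ⊕ ι₂)) with hC
  have hsort : (A + C).sort (· ≤ ·) = A.sort (· ≤ ·) ++ C.sort (· ≤ ·) := by
    refine List.Perm.eq_of_pairwise' (Multiset.pairwise_sort _ _) ?_ ?_
    · refine List.pairwise_append.2 ⟨Multiset.pairwise_sort _ _, Multiset.pairwise_sort _ _, ?_⟩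
      intro x hx y hy
      rw [Multiset.mem_sort, hA, Multiset.mem_map] at hx
      rw [Multiset.mem_sort, hC, Multiset.mem_map] at hy
      obtain ⟨i, -, rfl⟩ := hx
      obtain ⟨j, -, rfl⟩ := hy
      exact Sum.Lex.inl_le_inr i j
    · rw [← Multiset.coe_eq_coe, Multiset.sort_eq, ← Multiset.coe_add, Multiset.sort_eq,
        Multiset.sort_eq]
  rw [monomial, monomial, monomial, hsort, List.map_append, List.prod_append]

lemma exists_split (s : Multiset (ι₁ ⊕ₗ ι₂)) : ∃ (a : Multiset ι₁) (c : Multiset ι₂),
    s = a.map (fun i => toLex (Sum.inl i)) + c.map fun j => toLex (Sum.inr j) := by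
  induction s using Multiset.induction_on with
  | empty => exact ⟨0, 0, by simp⟩
  | cons x s ih =>
    obtain ⟨a, c, rfl⟩ := ih
    obtain ⟨y, rfl⟩ := toLex.surjective x
    rcases y with i | j
    · exact ⟨i ::ₘ a, c, by rw [Multiset.map_cons, Multiset.cons_add]⟩
    · exact ⟨a, j ::ₘ c, by rw [Multiset.map_cons, Multiset.add_cons]⟩

/-- A character of a subalgebra with a complement extends to the enveloping algebra. -/
theorem exists_induced_functional (hb : ∀ j, bL (toLex (Sum.inr j)) = (bB j : L))
    (χ : B →ₗ[K] K) (hχ : ∀ x y : B, χ ⁅x, y⁆ = 0) :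
    ∃ ψ : UniversalEnvelopingAlgebra K L →ₗ[K] K, ψ 1 = 1 ∧
      ∀ (u : UniversalEnvelopingAlgebra K L) (β : B),
        ψ (u * UniversalEnvelopingAlgebra.ι K (β : L)) = ψ u * χ β := by
  classical
  let χ' : B →ₗ⁅K⁆ K :=
    { χ with
      map_lie' := fun {x y} => by
        show χ ⁅x, y⁆ = ⁅χ x, χ y⁆
        rw [hχ, LieRing.of_associative_ring_bracket, mul_comm, sub_self] }
  let χU : UniversalEnvelopingAlgebra K B →ₐ[K] K := UniversalEnvelopingAlgebra.lift K χ'
  let Φ : UniversalEnvelopingAlgebra K B →ₐ[K] UniversalEnvelopingAlgebra K L :=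
    UniversalEnvelopingAlgebra.lift K ((UniversalEnvelopingAlgebra.ι K).comp B.incl)
  let ψ : UniversalEnvelopingAlgebra K L →ₗ[K] K := (pbwBasis bL).constr K fun s =>
    if ∀ x ∈ s, (ofLex x).isRight then χU (monomial bB (s.filterMap fun x => (ofLex x).getRight?))
    else 0
  have hψ : ∀ (a : Multiset ι₁) (c : Multiset ι₂),
      ψ (monomial bL (a.map (fun i => toLex (Sum.inl i)) + c.map fun j => toLex (Sum.inr j))) =
        if a = 0 then χU (monomial bB c) else 0 := by
    intro a c
    rw [← pbwBasis_apply, Basis.constr_basis]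
    by_cases ha : a = 0
    · subst ha
      rw [Multiset.map_zero, zero_add, if_pos rfl, if_pos, Multiset.filterMap_map]
      · simp [Function.comp_def, Multiset.filterMap_some]
      · intro x hx
        obtain ⟨j, -, rfl⟩ := Multiset.mem_map.1 hx
        rfl
    · rw [if_neg ha, if_neg]
      obtain ⟨i, hi⟩ := Multiset.exists_mem_of_ne_zero ha
      intro hall
      have := hall (toLex (Sum.inl i)) (Multiset.mem_add.2 (Or.inl (Multiset.mem_map.2 ⟨i, hi, rfl⟩)))
      simp at this
  have hΦ : ∀ (a : Multiset ι₁) (w : UniversalEnvelopingAlgebra K B),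
      ψ (monomial bL (a.map fun i => toLex (Sum.inl i)) * Φ w) = if a = 0 then χU w else 0 := by
    intro a
    by_cases ha : a = 0
    · have : ψ ∘ₗ LinearMap.mulLeft K (monomial bL (a.map fun i => toLex (Sum.inl i))) ∘ₗ
          Φ.toLinearMap = χU.toLinearMap := (pbwBasis bB).ext fun c => by
        simp only [LinearMap.comp_apply, LinearMap.mulLeft_apply, AlgHom.toLinearMap_apply,
          pbwBasis_apply]
        rw [monomial_inr B bB bL hb, ← monomial_add, hψ, if_pos ha]
      intro w
      rw [if_pos ha]
      exact LinearMap.congr_fun this w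
    · have : ψ ∘ₗ LinearMap.mulLeft K (monomial bL (a.map fun i => toLex (Sum.inl i))) ∘ₗ
          Φ.toLinearMap = 0 := (pbwBasis bB).ext fun c => by
        simp only [LinearMap.comp_apply, LinearMap.mulLeft_apply, AlgHom.toLinearMap_apply,
          pbwBasis_apply, LinearMap.zero_apply]
        rw [monomial_inr B bB bL hb, ← monomial_add, hψ, if_neg ha]
      intro w
      rw [if_neg ha]
      exact LinearMap.congr_fun this w
  refine ⟨ψ, ?_, fun u β => ?_⟩
  · have h := hψ 0 0
    simpa [monomial_zero] using h
  · have hβ : Φ (UniversalEnvelopingAlgebra.ι K β) = UniversalEnvelopingAlgebra.ι K (β : L) :=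
      lift_ι_apply K _ β
    have : ψ ∘ₗ LinearMap.mulRight K (UniversalEnvelopingAlgebra.ι K (β : L)) = χ β • ψ :=
      (pbwBasis bL).ext fun s => by
        obtain ⟨a, c, rfl⟩ := exists_split s
        simp only [LinearMap.comp_apply, LinearMap.mulRight_apply, LinearMap.smul_apply,
          smul_eq_mul, pbwBasis_apply]
        rw [monomial_add, ← monomial_inr B bB bL hb, mul_assoc, ← hβ, ← map_mul Φ, hΦ, hΦ]
        split_ifs with ha
        · rw [map_mul χU, lift_ι_apply, mul_comm]
          rfl
        · rw [mul_zero]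
    have h := LinearMap.congr_fun this u
    simp only [LinearMap.comp_apply, LinearMap.mulRight_apply, LinearMap.smul_apply,
      smul_eq_mul] at h
    rw [h, mul_comm]

end

section Split

variable {K L : Type*} [Field K] [LieRing L] [LieAlgebra K L]

/-- A subalgebra of a Lie algebra over a field gives an induced functional. -/
theorem exists_induced_functional_field (B : LieSubalgebra K L) (χ : B →ₗ[K] K)
    (hχ : ∀ x y : B, χ ⁅x, y⁆ = 0) :
    ∃ ψ : UniversalEnvelopingAlgebra K L →ₗ[K] K, ψ 1 = 1 ∧
      ∀ (u : UniversalEnvelopingAlgebra K L) (β : B),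
        ψ (u * UniversalEnvelopingAlgebra.ι K (β : L)) = ψ u * χ β := by
  classical
  obtain ⟨N, hN⟩ := B.toSubmodule.exists_isCompl
  let bB : Basis (Basis.ofVectorSpaceIndex K B) K B := Basis.ofVectorSpace K B
  let bN : Basis (Basis.ofVectorSpaceIndex K N) K N := Basis.ofVectorSpace K N
  let := linearOrderOfSTO (WellOrderingRel (α := Basis.ofVectorSpaceIndex K B))
  let := linearOrderOfSTO (WellOrderingRel (α := Basis.ofVectorSpaceIndex K N))
  let bL : Basis (Basis.ofVectorSpaceIndex K N ⊕ₗ Basis.ofVectorSpaceIndex K B) K L :=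
    ((bN.prod bB).map (Submodule.prodEquivOfIsCompl N B.toSubmodule hN.symm)).reindex toLex
  refine exists_induced_functional B bB bL (fun j => ?_) χ hχ
  show ((bN.prod bB).map (Submodule.prodEquivOfIsCompl N B.toSubmodule hN.symm)).reindex toLex
    (toLex (Sum.inr j)) = _
  rw [Basis.reindex_apply, Basis.map_apply, Submodule.coe_prodEquivOfIsCompl']
  simp

end Split

end FA.HighestWeight
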