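import Fermat.Agent.HighestWeight.Cyclic

/-!
# Irreducible modules with dominant integral highest weight are integrable

The vector `f^(m+1) v` is singular, hence zero, so simple root vectors act locally nilpotently and
weights can be reflected in simple roots.
-/

set_option autoImplicit false
set_option linter.unusedSectionVars false

noncomputable section

namespace FA.HighestWeight

open LieModule Module LieAlgebra LieAlgebra.IsKilling

attribute [local instance 100] LieRing.ofAssociativeRing

section Nilpotent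

variable {K L : Type*} [Field K] [CharZero K] [LieRing L] [LieAlgebra K L]
  {M : Type*} [AddCommGroup M] [Module K M] [LieRingModule L M] [LieModule K L M]
  [FiniteDimensional K M]

/-- The `e` of an `sl₂` triple acts nilpotently on finite-dimensional modules. -/
lemma exists_pow_e_eq_zero {h e f : L} (t : IsSl2Triple h e f) :
    ∃ n : ℕ, toEnd K L M e ^ n = 0 := by
  obtain ⟨N, hN⟩ := exists_prod_eq_zero (toEnd K L M h)
  refine ⟨N, ?_⟩
  rw [← List.prod_replicate]
  refine hN _ (fun T hT => ⟨2, two_pos, ?_⟩) (by simp)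
  rw [List.eq_of_mem_replicate hT, ← LieRing.of_associative_ring_bracket, ← LieHom.map_lie,
    t.lie_h_e_smul K, map_smul, Nat.cast_ofNat]

end Nilpotent

universe u v

variable {K : Type u} {L : Type v} [Field K] [CharZero K] [LieRing L] [LieAlgebra K L]
  [IsKilling K L] [FiniteDimensional K L]
  {H : LieSubalgebra K L} [H.IsCartanSubalgebra] [IsTriangularizable K H L]
  {b : (rootSystem H).Base}
  {M : Type*} [AddCommGroup M] [Module K M] [LieRingModule L M] [LieModule K L M]

/-- Positive root vectors other than `α` kill the string below a highest weight vector. -/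
lemma raise_pow_f {lam : Dual K H} {v : M} (hv : IsHighestWeight b lam v) {α : H.root}
    (hα : α ∈ b.support) {f : L} (hf : f ∈ rootSpace H (negRoot α).1) (n : ℕ) :
    ∀ β : H.root, b.IsPos β → β ≠ α → ∀ x ∈ rootSpace H β.1,
      ⁅x, (toEnd K L M f ^ n) v⁆ = 0 := by
  induction n with
  | zero =>
    intro β hβ _ x hx
    exact hv.raise β hβ x hx
  | succ n ih =>
    intro β hβ hne x hx
    rw [toEnd_pow_succ_apply, leibniz_lie, ih β hβ hne x hx, lie_zero, add_zero]
    rcases rootSpace_sub_simple b hα hβ hne (lie_mem_rootSpace hx hf) with h | ⟨γ, hγ, hγα, h⟩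
    · rw [h, zero_lie]
    · exact ih γ hγ hγα _ h

variable [IsIrreducible K L M]

/-- The singular vector vanishes. -/
lemma pow_f_eq_zero {lam : Dual K H} {v : M} (hv : IsHighestWeight b lam v) {α : H.root}
    (hα : α ∈ b.support) {e f : L} (t : IsSl2Triple (crt α : L) e f)
    (he : e ∈ rootSpace H α.1) (hf : f ∈ rootSpace H (negRoot α).1) {m : ℕ}
    (hm : lam (crt α) = (m : K)) : (toEnd K L M f ^ (m + 1)) v = 0 := by
  by_contra h0
  have P : t.HasPrimitiveVectorWith v (m : K) :=
    { ne_zero := hv.ne_zero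
      lie_h := by rw [hv.weight (crt α), hm]
      lie_e := hv.raise α (RootPairing.Base.isPos_of_mem_support hα) e he }
  have hw : IsHighestWeight b (lam + ((m + 1 : ℕ) : K) • rt (negRoot α))
      ((toEnd K L M f ^ (m + 1)) v) := by
    refine ⟨h0, hv.weight.pow hf _, fun β hβ x hx => ?_⟩
    by_cases hne : β = α
    · subst hne
      obtain ⟨c, rfl⟩ := rootSpace_smul_of_mem he t.e_ne_zero hx
      rw [smul_lie, P.lie_e_pow_succ_toEnd_f, sub_self, mul_zero, zero_smul, smul_zero]
    · exact raise_pow_f hv hα hf _ β hβ hne x hx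
  have h := LinearMap.congr_fun (highest_weight_vector_unique hv hw).1 (heightElt b)
  rw [LinearMap.add_apply, LinearMap.smul_apply, rt_negRoot, LinearMap.neg_apply,
    apply_heightElt_of_mem b hα, smul_eq_mul, mul_neg, mul_one, add_eq_left, neg_eq_zero,
    Nat.cast_eq_zero] at h
  omega

lemma exists_pow_eq_zero_of_nil {lam : Dual K H} {v : M} (hv : IsHighestWeight b lam v) {x : L}
    (hx : ∀ y : L, ∃ a, (toEnd K L L x ^ a) y = 0) (hxv : ∃ n, (toEnd K L M x ^ n) v = 0) (y : M) :
    ∃ n, (toEnd K L M x ^ n) y = 0 := by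
  rcases IsSimpleOrder.eq_bot_or_eq_top (nilSubmodule (K := K) (M := M) x hx) with h | h
  · have hmem : v ∈ nilSubmodule (K := K) (M := M) x hx := hxv
    rw [h, LieSubmodule.mem_bot] at hmem
    exact absurd hmem hv.ne_zero
  · show y ∈ nilSubmodule (K := K) (M := M) x hx
    rw [h]
    exact LieSubmodule.mem_top y

lemma locally_nilpotent_e {lam : Dual K H} {v : M} (hv : IsHighestWeight b lam v) {α : H.root}
    (hα : α ∈ b.support) {e f : L} (t : IsSl2Triple (crt α : L) e f)
    (he : e ∈ rootSpace H α.1) (y : M) : ∃ n, (toEnd K L M e ^ n) y = 0 := by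
  obtain ⟨a, ha⟩ := exists_pow_e_eq_zero (K := K) (M := L) t
  refine exists_pow_eq_zero_of_nil hv (fun z => ⟨a, by rw [ha, LinearMap.zero_apply]⟩) ⟨1, ?_⟩ y
  rw [pow_one, toEnd_apply_apply]
  exact hv.raise α (RootPairing.Base.isPos_of_mem_support hα) e he

lemma locally_nilpotent_f {lam : Dual K H} {v : M} (hv : IsHighestWeight b lam v)
    (hdom : IsDominantIntegral b lam) {α : H.root}
    (hα : α ∈ b.support) {e f : L} (t : IsSl2Triple (crt α : L) e f)
    (he : e ∈ rootSpace H α.1) (hf : f ∈ rootSpace H (negRoot α).1) (y : M) :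
    ∃ n, (toEnd K L M f ^ n) y = 0 := by
  obtain ⟨a, ha⟩ := exists_pow_e_eq_zero (K := K) (M := L) t.symm
  obtain ⟨m, hm⟩ := hdom α hα
  exact exists_pow_eq_zero_of_nil hv (fun z => ⟨a, by rw [ha, LinearMap.zero_apply]⟩)
    ⟨m + 1, pow_f_eq_zero hv hα t he hf hm⟩ y

/-- A weight with value `-n` on a simple coroot climbs by `n` times the root. -/
lemma exists_reflect_up {lam μ : Dual K H} {v x : M} (hv : IsHighestWeight b lam v)
    (hdom : IsDominantIntegral b lam) {α : H.root} (hα : α ∈ b.support) (hx : HasWeight μ x)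
    (hx0 : x ≠ 0) {n : ℕ} (hn : μ (crt α) = -(n : K)) :
    ∃ y : M, y ≠ 0 ∧ HasWeight (μ + (n : K) • rt α) y := by
  obtain ⟨e, f, t, he, hf⟩ := exists_triple α
  obtain ⟨k, hk⟩ := exists_push_down (K := K) t.symm (locally_nilpotent_f hv hdom hα t he hf) hx0
    (m := n) (by rw [neg_lie, hx (crt α), hn, neg_smul, neg_neg])
  refine ⟨_, hk, ?_⟩
  have := (hx.pow hf k).pow he (n + k)
  rwa [show μ + (k : K) • rt (negRoot α) + ((n + k : ℕ) : K) • rt α = μ + (n : K) • rt α by
    rw [rt_negRoot]; push_cast; module] at this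

end FA.HighestWeight
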