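import Fermat.Agent.HighestWeight.Cyclic

/-!
# The highest weight determines the irreducible module

Inside the product of two irreducible modules the submodule generated by the pair of highest weight
vectors projects isomorphically to both factors.
-/

set_option autoImplicit false
set_option linter.unusedSectionVars false

noncomputable section

namespace FA.HighestWeight

open LieModule Module LieAlgebra LieAlgebra.IsKilling

universe u v

variable {K : Type u} {L : Type v} [Field K] [CharZero K] [LieRing L] [LieAlgebra K L]
  [IsKilling K L] [FiniteDimensional K L]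
  {H : LieSubalgebra K L} [H.IsCartanSubalgebra] [IsTriangularizable K H L]
  {b : (rootSystem H).Base}
  {V W : Type*} [AddCommGroup V] [Module K V] [LieRingModule L V] [LieModule K L V]
  [AddCommGroup W] [Module K W] [LieRingModule L W] [LieModule K L W]

/-- The componentwise action on a product of modules. -/
@[instance_reducible]
def prodLieRingModule : LieRingModule L (V × W) where
  bracket x p := (⁅x, p.1⁆, ⁅x, p.2⁆)
  add_lie x y p := Prod.ext (add_lie x y p.1) (add_lie x y p.2)
  lie_add x p q := Prod.ext (lie_add x p.1 q.1) (lie_add x p.2 q.2)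
  leibniz_lie x y p := Prod.ext (leibniz_lie x y p.1) (leibniz_lie x y p.2)

attribute [local instance] prodLieRingModule

/-- The componentwise action is linear. -/
lemma prodLieModule : LieModule K L (V × W) where
  smul_lie c x p := Prod.ext (smul_lie c x p.1) (smul_lie c x p.2)
  lie_smul c x p := Prod.ext (lie_smul c x p.1) (lie_smul c x p.2)

attribute [local instance] prodLieModule

/-- Irreducible modules with the same highest weight are isomorphic. -/
theorem nonempty_equiv [IsIrreducible K L V] [IsIrreducible K L W] {lam : Dual K H} {v : V} {w : W}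
    (hv : IsHighestWeight b lam v) (hw : IsHighestWeight b lam w) :
    Nonempty (V ≃ₗ⁅K,L⁆ W) := by
  have hvw : IsHighestWeight b lam ((v, w) : V × W) :=
    { ne_zero := fun h => hv.ne_zero (congrArg Prod.fst h)
      weight := fun h => Prod.ext (hv.weight h) (hw.weight h)
      raise := fun α hα x hx => Prod.ext (hv.raise α hα x hx) (hw.raise α hα x hx) }
  set S := cyclic hvw
  let p₁ : S →ₗ⁅K,L⁆ V :=
    { toFun := fun s => (s : V × W).1
      map_add' := fun _ _ => rfl
      map_smul' := fun _ _ => rfl
      map_lie' := rfl }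
  let p₂ : S →ₗ⁅K,L⁆ W :=
    { toFun := fun s => (s : V × W).2
      map_add' := fun _ _ => rfl
      map_smul' := fun _ _ => rfl
      map_lie' := rfl }
  have hmem : ((v, w) : V × W) ∈ S := word_mem (b := b) _ []
  have hs₁ : Function.Surjective p₁ := by
    rw [← LieModuleHom.range_eq_top]
    rcases IsSimpleOrder.eq_bot_or_eq_top p₁.range with h | h
    · have : v ∈ p₁.range := ⟨⟨(v, w), hmem⟩, rfl⟩
      rw [h, LieSubmodule.mem_bot] at this
      exact absurd this hv.ne_zero
    · exact h
  have hs₂ : Function.Surjective p₂ := by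
    rw [← LieModuleHom.range_eq_top]
    rcases IsSimpleOrder.eq_bot_or_eq_top p₂.range with h | h
    · have : w ∈ p₂.range := ⟨⟨(v, w), hmem⟩, rfl⟩
      rw [h, LieSubmodule.mem_bot] at this
      exact absurd this hw.ne_zero
    · exact h
  have hi₁ : Function.Injective p₁ := by
    let inr' : W →ₗ⁅K,L⁆ V × W :=
      { LinearMap.inr K V W with map_lie' := fun {x m} => Prod.ext (lie_zero x).symm rfl }
    rcases IsSimpleOrder.eq_bot_or_eq_top (S.comap inr') with h | h
    · intro s t hst
      have hsub : inr' ((s : V × W).2 - (t : V × W).2) ∈ S := by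
        have := S.sub_mem s.2 t.2
        rwa [show (s : V × W) - (t : V × W) = inr' ((s : V × W).2 - (t : V × W).2) from
          Prod.ext (sub_eq_zero.2 hst) rfl] at this
      have h0 : (s : V × W).2 - (t : V × W).2 ∈ S.comap inr' := hsub
      rw [h, LieSubmodule.mem_bot, sub_eq_zero] at h0
      exact Subtype.ext (Prod.ext hst h0)
    · exfalso
      have h0 : w ∈ S.comap inr' := by rw [h]; exact LieSubmodule.mem_top w
      obtain ⟨c, hc⟩ := exists_smul_of_weight (b := b) hvw.weight
        (x := ((0 : V), w)) (fun z => Prod.ext (by simp [Bracket.bracket]) (hw.weight z)) h0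
      have hc1 : c • v = 0 := congrArg Prod.fst hc
      have hc0 : c = 0 := (smul_eq_zero.1 hc1).resolve_right hv.ne_zero
      have hc2 : c • w = w := congrArg Prod.snd hc
      rw [hc0, zero_smul] at hc2
      exact hw.ne_zero hc2.symm
  have hi₂ : Function.Injective p₂ := by
    let inl' : V →ₗ⁅K,L⁆ V × W :=
      { LinearMap.inl K V W with map_lie' := fun {x m} => Prod.ext rfl (lie_zero x).symm }
    rcases IsSimpleOrder.eq_bot_or_eq_top (S.comap inl') with h | h
    · intro s t hst
      have hsub : inl' ((s : V × W).1 - (t : V × W).1) ∈ S := by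
        have := S.sub_mem s.2 t.2
        rwa [show (s : V × W) - (t : V × W) = inl' ((s : V × W).1 - (t : V × W).1) from
          Prod.ext rfl (sub_eq_zero.2 hst)] at this
      have h0 : (s : V × W).1 - (t : V × W).1 ∈ S.comap inl' := hsub
      rw [h, LieSubmodule.mem_bot, sub_eq_zero] at h0
      exact Subtype.ext (Prod.ext h0 hst)
    · exfalso
      have h0 : v ∈ S.comap inl' := by rw [h]; exact LieSubmodule.mem_top v
      obtain ⟨c, hc⟩ := exists_smul_of_weight (b := b) hvw.weight
        (x := (v, (0 : W))) (fun z => Prod.ext (hv.weight z) (by simp [Bracket.bracket])) h0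
      have hc1 : c • w = 0 := congrArg Prod.snd hc
      have hc0 : c = 0 := (smul_eq_zero.1 hc1).resolve_right hw.ne_zero
      have hc2 : c • v = v := congrArg Prod.fst hc
      rw [hc0, zero_smul] at hc2
      exact hv.ne_zero hc2.symm
  let e₁ : S ≃ₗ⁅K,L⁆ V :=
    { LinearEquiv.ofBijective p₁.toLinearMap ⟨hi₁, hs₁⟩ with map_lie' := fun {x m} => p₁.map_lie x m }
  let e₂ : S ≃ₗ⁅K,L⁆ W :=
    { LinearEquiv.ofBijective p₂.toLinearMap ⟨hi₂, hs₂⟩ with map_lie' := fun {x m} => p₂.map_lie x m }
  exact ⟨e₁.symm.trans e₂⟩

/-- Isomorphic modules have the same highest weight. -/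
theorem highest_weight_eq_of_equiv [IsIrreducible K L W] {lam μ : Dual K H} {v : V} {w : W}
    (hv : IsHighestWeight b lam v) (hw : IsHighestWeight b μ w) (e : V ≃ₗ⁅K,L⁆ W) : lam = μ := by
  have he : IsHighestWeight b lam (e v) :=
    { ne_zero := fun h => hv.ne_zero (e.injective (h.trans (map_zero e.toLinearEquiv).symm))
      weight := fun h => by
        have h1 : ⁅(h : L), e v⁆ = e ⁅(h : L), v⁆ := ((e : V →ₗ⁅K,L⁆ W).map_lie _ _).symm
        rw [h1, hv.weight h]
        exact map_smul e.toLinearEquiv _ _
      raise := fun α hα x hx => by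
        have h1 : ⁅x, e v⁆ = e ⁅x, v⁆ := ((e : V →ₗ⁅K,L⁆ W).map_lie _ _).symm
        rw [h1, hv.raise α hα x hx]
        exact map_zero e.toLinearEquiv }
  exact ((highest_weight_vector_unique he hw).1).symm

end FA.HighestWeight
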