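import Fermat.Agent.HighestWeight.Induced
import Fermat.Agent.HighestWeight.Cyclic

/-!
# Irreducible modules with a prescribed highest weight

The character of the Borel subalgebra given by a functional on the Cartan subalgebra generates a
proper left ideal, and the quotient by a maximal left ideal above it is an irreducible module with
that highest weight.
-/

set_option autoImplicit false
set_option linter.unusedSectionVars false

noncomputable section

namespace FA.HighestWeight

open LieModule Module LieAlgebra LieAlgebra.IsKilling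

attribute [local instance 100] LieRing.ofAssociativeRing

universe u v

variable {K : Type u} {L : Type v} [Field K] [CharZero K] [LieRing L] [LieAlgebra K L]
  [IsKilling K L] [FiniteDimensional K L]
  {H : LieSubalgebra K L} [H.IsCartanSubalgebra] [IsTriangularizable K H L]
  (b : (rootSystem H).Base)

/-- Generators of the Borel subalgebra. -/
def borelGen : Set L :=
  (H : Set L) ∪ {x | ∃ α : H.root, b.IsPos α ∧ x ∈ rootSpace H α.1}

lemma lie_borelGen {x y : L} (hx : x ∈ borelGen b) (hy : y ∈ borelGen b) :
    ⁅x, y⁆ = 0 ∨ ∃ γ : H.root, b.IsPos γ ∧ ⁅x, y⁆ ∈ rootSpace H γ.1 := by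
  rcases hx with hx | ⟨α, hα, hx⟩ <;> rcases hy with hy | ⟨β, hβ, hy⟩
  · left
    have : IsLieAbelian H := inferInstance
    have h : ⁅(⟨x, hx⟩ : H), (⟨y, hy⟩ : H)⁆ = 0 := trivial_lie_zero _ _ _ _
    exact congrArg Subtype.val h
  · refine Or.inr ⟨β, hβ, ?_⟩
    rw [lie_root_vector hy ⟨x, hx⟩]
    exact (rootSpace H (β.1 : H → K)).smul_mem _ hy
  · refine Or.inr ⟨α, hα, ?_⟩
    rw [← lie_skew, lie_root_vector hx ⟨y, hy⟩]
    exact (rootSpace H (α.1 : H → K)).neg_mem ((rootSpace H (α.1 : H → K)).smul_mem _ hx)
  · rcases rootSpace_cases (lie_mem_rootSpace hx hy) with h | ⟨h0, -⟩ | ⟨γ, hγ⟩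
    · exact Or.inl h
    · exfalso
      have h : rt α (heightElt b) + rt β (heightElt b) = 0 := congr_fun h0 (heightElt b)
      rw [apply_heightElt, apply_heightElt, ← Int.cast_add, Int.cast_eq_zero] at h
      have := (RootPairing.Base.isPos_iff b).1 hα
      have := (RootPairing.Base.isPos_iff b).1 hβ
      omega
    · exact Or.inr ⟨γ, hα.add hβ (LinearMap.ext fun z => congr_fun hγ z),
        by rw [hγ]; exact lie_mem_rootSpace hx hy⟩

/-- The Borel subalgebra. -/
def borel : LieSubalgebra K L where
  toSubmodule := Submodule.span K (borelGen b)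
  lie_mem' := fun {x y} (hx : x ∈ Submodule.span K (borelGen b))
      (hy : y ∈ Submodule.span K (borelGen b)) => by
    show ⁅x, y⁆ ∈ Submodule.span K (borelGen b)
    induction hx, hy using Submodule.span_induction₂ with
    | mem_mem x y hx hy =>
      rcases lie_borelGen b hx hy with h | ⟨γ, hγ, h⟩
      · rw [h]; exact zero_mem _
      · exact Submodule.subset_span (Or.inr ⟨γ, hγ, h⟩)
    | zero_left => simp
    | zero_right => simp
    | add_left x y z _ _ _ h1 h2 => rw [add_lie]; exact add_mem h1 h2
    | add_right x y z _ _ _ h1 h2 => rw [lie_add]; exact add_mem h1 h2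
    | smul_left c x y _ _ h => rw [smul_lie]; exact Submodule.smul_mem _ c h
    | smul_right c x y _ _ h => rw [lie_smul]; exact Submodule.smul_mem _ c h

variable (H) in
/-- The span of all root spaces. -/
def rootSum : Submodule K L :=
  Submodule.span K (Set.range (rootVec : H.root → L))

lemma rootSpace_le_rootSum {α : H.root} {x : L} (hx : x ∈ rootSpace H α.1) : x ∈ rootSum H := by
  obtain ⟨c, rfl⟩ := exists_smul_rootVec hx
  exact Submodule.smul_mem _ c (Submodule.subset_span ⟨α, rfl⟩)

include b in
lemma isCompl_cartan_rootSum : IsCompl H.toSubmodule (rootSum H) := by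
  constructor
  · set E : K → Submodule K L := Module.End.eigenspace (toEnd K L L (heightElt b : L)) with hE
    have h1 : H.toSubmodule ≤ E 0 := fun x hx => by
      rw [hE, Module.End.mem_eigenspace_iff, toEnd_apply_apply, zero_smul]
      have h : ⁅heightElt b, (⟨x, hx⟩ : H)⁆ = 0 := trivial_lie_zero _ _ _ _
      exact congrArg Subtype.val h
    have h2 : rootSum H ≤ ⨆ (μ : K) (_ : μ ≠ 0), E μ := Submodule.span_le.2 (by
      rintro _ ⟨α, rfl⟩
      refine Submodule.mem_iSup_of_mem (rt α (heightElt b)) (Submodule.mem_iSup_of_mem ?_ ?_)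
      · rw [apply_heightElt]
        exact_mod_cast b.height_ne_zero α
      · rw [hE, Module.End.mem_eigenspace_iff, toEnd_apply_apply]
        exact lie_root_vector (rootVec_mem α) _)
    exact ((Module.End.eigenspaces_iSupIndep _ 0).mono h1 h2)
  · rw [codisjoint_iff]
    exact eq_top_of_cartan_of_rootSpace _ (fun h => Submodule.mem_sup_left h.2)
      (fun α x hx => Submodule.mem_sup_right (rootSpace_le_rootSum hx))

/-- The character of the Borel subalgebra attached to a functional on the Cartan subalgebra. -/
def borelChar (lam : Dual K H) : borel b →ₗ[K] K :=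
  (lam ∘ₗ H.toSubmodule.projectionOnto (rootSum H) (isCompl_cartan_rootSum b)) ∘ₗ
    (borel b).toSubmodule.subtype

lemma borelChar_cartan (lam : Dual K H) (h : H) (hm : (h : L) ∈ borel b) :
    borelChar b lam ⟨h, hm⟩ = lam h :=
  congrArg lam (Submodule.projectionOnto_apply_left (isCompl_cartan_rootSum b) h)

lemma borelChar_rootSum (lam : Dual K H) (x : borel b) (hx : (x : L) ∈ rootSum H) :
    borelChar b lam x = 0 := by
  show lam (H.toSubmodule.projectionOnto (rootSum H) (isCompl_cartan_rootSum b) (x : L)) = 0
  rw [Submodule.projectionOnto_apply_of_mem_right _ hx, map_zero]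

lemma borelChar_lie (lam : Dual K H) (x y : borel b) : borelChar b lam ⁅x, y⁆ = 0 := by
  apply borelChar_rootSum
  obtain ⟨x, hx⟩ := x
  obtain ⟨y, hy⟩ := y
  show ⁅x, y⁆ ∈ rootSum H
  replace hx : x ∈ Submodule.span K (borelGen b) := hx
  replace hy : y ∈ Submodule.span K (borelGen b) := hy
  induction hx, hy using Submodule.span_induction₂ with
  | mem_mem x y hx hy =>
    rcases lie_borelGen b hx hy with h | ⟨γ, -, h⟩
    · rw [h]; exact zero_mem _
    · exact rootSpace_le_rootSum h
  | zero_left => simp
  | zero_right => simp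
  | add_left x y z _ _ _ h1 h2 => rw [add_lie]; exact add_mem h1 h2
  | add_right x y z _ _ _ h1 h2 => rw [lie_add]; exact add_mem h1 h2
  | smul_left c x y _ _ h => rw [smul_lie]; exact Submodule.smul_mem _ c h
  | smul_right c x y _ _ h => rw [lie_smul]; exact Submodule.smul_mem _ c h

/-- The enveloping algebra as a left module over the Lie algebra. -/
@[instance_reducible]
def leftMulLieRingModule : LieRingModule L (UniversalEnvelopingAlgebra K L) where
  bracket x u := UniversalEnvelopingAlgebra.ι K x * u
  add_lie x y u := by rw [map_add, add_mul]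
  lie_add x u w := mul_add _ _ _
  leibniz_lie x y u := by
    show _ * (_ * u) = UniversalEnvelopingAlgebra.ι K ⁅x, y⁆ * u + _ * (_ * u)
    rw [LieHom.map_lie, LieRing.of_associative_ring_bracket, sub_mul, mul_assoc, mul_assoc,
      sub_add_cancel]

attribute [local instance] leftMulLieRingModule

/-- Left multiplication is linear. -/
lemma leftMulLieModule : LieModule K L (UniversalEnvelopingAlgebra K L) where
  smul_lie c x u := by
    show UniversalEnvelopingAlgebra.ι K (c • x) * u = c • (_ * u)
    rw [map_smul, smul_mul_assoc]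
  lie_smul c x u := mul_smul_comm c _ u

attribute [local instance] leftMulLieModule

lemma mul_mem_of_lie_mem {K L : Type*} [CommRing K] [LieRing L] [LieAlgebra K L]
    (S : Submodule K (UniversalEnvelopingAlgebra K L))
    (hS : ∀ x : L, ∀ s ∈ S, UniversalEnvelopingAlgebra.ι K x * s ∈ S)
    (u : UniversalEnvelopingAlgebra K L) {s : UniversalEnvelopingAlgebra K L} (hs : s ∈ S) :
    u * s ∈ S := by
  let T : Subalgebra K (UniversalEnvelopingAlgebra K L) :=
    { carrier := {u | ∀ s ∈ S, u * s ∈ S}
      mul_mem' := fun {a c} ha hc s hs => by rw [mul_assoc]; exact ha _ (hc s hs)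
      add_mem' := fun {a c} ha hc s hs => by rw [add_mul]; exact S.add_mem (ha s hs) (hc s hs)
      algebraMap_mem' := fun r s hs => by rw [← Algebra.smul_def]; exact S.smul_mem r hs }
  let g : L →ₗ⁅K⁆ T :=
    { (UniversalEnvelopingAlgebra.ι K).toLinearMap.codRestrict T.toSubmodule hS with
      map_lie' := fun {x y} => Subtype.ext (by
        show UniversalEnvelopingAlgebra.ι K ⁅x, y⁆ = _
        rw [LieHom.map_lie]
        rfl) }
  have h : T.val.comp (UniversalEnvelopingAlgebra.lift K g) =
      AlgHom.id K (UniversalEnvelopingAlgebra K L) := UniversalEnvelopingAlgebra.hom_ext K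
    (LieHom.ext fun x => by
      show T.val (UniversalEnvelopingAlgebra.lift K g (UniversalEnvelopingAlgebra.ι K x)) = _
      rw [UniversalEnvelopingAlgebra.lift_ι_apply]
      rfl)
  have e : (UniversalEnvelopingAlgebra.lift K g u : UniversalEnvelopingAlgebra K L) = u :=
    AlgHom.congr_fun h u
  have hu : u ∈ T := by
    rw [← e]
    exact (UniversalEnvelopingAlgebra.lift K g u).2
  exact hu s hs

/-- Every functional on the Cartan subalgebra is the highest weight of an irreducible module. -/
theorem exists_irreducible_highest_weight (lam : Dual K H) :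
    ∃ (V : Type (max u v)) (_ : AddCommGroup V) (_ : Module K V) (_ : LieRingModule L V)
      (_ : LieModule K L V), IsIrreducible K L V ∧ ∃ v : V, IsHighestWeight b lam v := by
  obtain ⟨ψ, hψ1, hψ⟩ := exists_induced_functional_field (borel b) (borelChar b lam)
    (borelChar_lie b lam)
  let G : Set (UniversalEnvelopingAlgebra K L) := Set.range fun β : borel b =>
    UniversalEnvelopingAlgebra.ι K (β : L) -
      algebraMap K (UniversalEnvelopingAlgebra K L) (borelChar b lam β)
  have hker : ∀ u ∈ Ideal.span G, ψ u = 0 := by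
    intro u hu
    suffices h : ∀ a, ψ (a * u) = 0 by simpa using h 1
    induction hu using Submodule.span_induction with
    | mem g hg =>
      obtain ⟨β, rfl⟩ := hg
      intro a
      rw [mul_sub, map_sub, hψ, ← Algebra.commutes, ← Algebra.smul_def, map_smul, smul_eq_mul,
        mul_comm, sub_self]
    | zero => simp
    | add x y _ _ hx hy => intro a; rw [mul_add, map_add, hx, hy, add_zero]
    | smul c x _ hx => intro a; rw [smul_eq_mul, ← mul_assoc, hx]
  have htop : Ideal.span G ≠ ⊤ := fun h => by
    have := hker 1 (by rw [h]; trivial)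
    rw [hψ1] at this
    exact one_ne_zero this
  obtain ⟨m, hm, hle⟩ := Ideal.exists_le_maximal _ htop
  let W : LieSubmodule K L (UniversalEnvelopingAlgebra K L) :=
    { m.restrictScalars K with lie_mem := fun {x u} hu => m.mul_mem_left _ hu }
  have hone : (1 : UniversalEnvelopingAlgebra K L) ∉ W := fun h =>
    hm.ne_top ((Ideal.eq_top_iff_one m).2 h)
  refine ⟨UniversalEnvelopingAlgebra K L ⧸ W, inferInstance, inferInstance, inferInstance,
    inferInstance, ?_, LieSubmodule.Quotient.mk' W 1, ?_, ?_, ?_⟩
  · have : Nontrivial (UniversalEnvelopingAlgebra K L ⧸ W) :=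
      ⟨LieSubmodule.Quotient.mk' W 1, 0, fun h => hone ((LieSubmodule.Quotient.mk_eq_zero W).1 h)⟩
    refine IsIrreducible.mk fun S hS => ?_
    let S' : LieSubmodule K L (UniversalEnvelopingAlgebra K L) :=
      S.comap (LieSubmodule.Quotient.mk' W)
    let I : Ideal (UniversalEnvelopingAlgebra K L) :=
      { carrier := S'
        add_mem' := fun ha hc => S'.add_mem ha hc
        zero_mem' := S'.zero_mem
        smul_mem' := fun a s hs =>
          mul_mem_of_lie_mem S'.toSubmodule (fun x t ht => S'.lie_mem (x := x) ht) a hs }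
    have hmI : m ≤ I := fun u hu => by
      show LieSubmodule.Quotient.mk' W u ∈ S
      rw [(LieSubmodule.Quotient.mk_eq_zero W).2 hu]
      exact S.zero_mem
    rcases hm.out.le_iff.1 hmI with h | h
    · rw [eq_top_iff]
      intro q _
      obtain ⟨u, rfl⟩ := LieSubmodule.Quotient.surjective_mk' W q
      exact (Submodule.eq_top_iff'.1 h u : u ∈ I)
    · exfalso
      apply hS
      rw [eq_bot_iff]
      intro q hq
      obtain ⟨u, rfl⟩ := LieSubmodule.Quotient.surjective_mk' W q
      rw [LieSubmodule.mem_bot, LieSubmodule.Quotient.mk_eq_zero]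
      exact (h ▸ hq : u ∈ m)
  · exact fun h => hone ((LieSubmodule.Quotient.mk_eq_zero W).1 h)
  · intro h
    rw [← LieModuleHom.map_lie, ← map_smul, ← sub_eq_zero, ← map_sub,
      LieSubmodule.Quotient.mk_eq_zero]
    have := hle (Ideal.subset_span ⟨⟨h, Submodule.subset_span (Or.inl h.2)⟩, rfl⟩)
    show UniversalEnvelopingAlgebra.ι K (h : L) * 1 - lam h • (1 : UniversalEnvelopingAlgebra K L) ∈ m
    rw [mul_one, ← Algebra.algebraMap_eq_smul_one, ← borelChar_cartan b lam h
      (Submodule.subset_span (Or.inl h.2))]
    exact this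
  · intro α hα x hx
    rw [← LieModuleHom.map_lie, LieSubmodule.Quotient.mk_eq_zero]
    have := hle (Ideal.subset_span ⟨⟨x, Submodule.subset_span (Or.inr ⟨α, hα, hx⟩)⟩, rfl⟩)
    show UniversalEnvelopingAlgebra.ι K x * 1 ∈ m
    rw [mul_one]
    simp only at this
    rw [borelChar_rootSum b lam ⟨x, _⟩ (rootSpace_le_rootSum hx), map_zero, sub_zero] at this
    exact this

end FA.HighestWeight
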