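import Fermat.Agent.HighestWeight.Existence
import Fermat.Agent.HighestWeight.Finite
import Fermat.Agent.HighestWeight.Uniqueness
import Fermat.Agent.HighestWeight.Verma

/-!
# The theorem of the highest weight

Irreducible finite-dimensional modules of a split semisimple Lie algebra correspond to dominant
integral weights. The fundamental weights show that nontrivial ones exist.
-/

set_option autoImplicit false
set_option linter.unusedSectionVars false

noncomputable section

namespace FA.HighestWeight

open LieModule Module LieAlgebra LieAlgebra.IsKilling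

attribute [local instance 100] LieRing.ofAssociativeRing

universe u v

variable {K : Type u} {L : Type v} [Field K] [CharZero K] [LieRing L] [LieAlgebra K L]
  [IsKilling K L] [FiniteDimensional K L]
  {H : LieSubalgebra K L} [H.IsCartanSubalgebra] [IsTriangularizable K H L]
  (b : (rootSystem H).Base)

/-- Every finite-dimensional irreducible module has a highest weight, which is dominant integral;
it is unique and so is the vector up to scale. -/
theorem existsUnique_highest_weight {M : Type*} [AddCommGroup M] [Module K M] [LieRingModule L M]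
    [LieModule K L M] [FiniteDimensional K M] [IsIrreducible K L M] :
    ∃! lam : Dual K H, IsDominantIntegral b lam ∧ ∃ v : M, IsHighestWeight b lam v := by
  have : Nontrivial M := nontrivial_of_isIrreducible K L M
  obtain ⟨lam, v, hdom, hv⟩ := exists_highest_weight_vector b (M := M)
  exact ⟨lam, ⟨hdom, v, hv⟩, fun μ ⟨_, w, hw⟩ => (highest_weight_vector_unique hv hw).1⟩

/-- Every dominant integral functional is the highest weight of a finite-dimensional irreducible
module. -/
theorem exists_finiteDimensional_irreducible (lam : Dual K H) (hdom : IsDominantIntegral b lam) :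
    ∃ (V : Type (max u v)) (_ : AddCommGroup V) (_ : Module K V) (_ : LieRingModule L V)
      (_ : LieModule K L V), IsIrreducible K L V ∧ FiniteDimensional K V ∧
        ∃ v : V, IsHighestWeight b lam v := by
  obtain ⟨V, i₁, i₂, i₃, i₄, hirr, v, hv⟩ := exists_irreducible_highest_weight b lam
  exact ⟨V, i₁, i₂, i₃, i₄, hirr, finiteDimensional_of_dominant hv hdom, v, hv⟩

lemma support_nonempty_of_nontrivial [Nontrivial L] : b.support.Nonempty := by
  by_contra hne
  rw [Finset.not_nonempty_iff_eq_empty] at hne
  have hH : ∀ h : H, h = 0 := fun h => by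
    have : h ∈ Submodule.span K (crt '' (b.support : Set H.root)) := by
      rw [span_crt_support]; trivial
    rwa [hne, Finset.coe_empty, Set.image_empty, Submodule.span_empty, Submodule.mem_bot] at this
  have hroot : IsEmpty H.root := ⟨fun α => by
    have h := rt_crt_self α
    rw [hH (crt α), map_zero] at h
    exact two_ne_zero h.symm⟩
  have htop := eq_top_of_cartan_of_rootSpace (H := H) (⊥ : Submodule K L)
    (fun h => by rw [hH h]; simp) (fun α => isEmptyElim α)
  obtain ⟨x, hx⟩ := exists_ne (0 : L)
  exact hx ((Submodule.mem_bot K).1 (htop ▸ Submodule.mem_top : x ∈ (⊥ : Submodule K L)))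

include b in
/-- A nonzero split semisimple Lie algebra has irreducible modules of dimension at least two: the
fundamental ones. -/
theorem exists_nontrivial_irreducible [Nontrivial L] :
    ∃ (V : Type (max u v)) (_ : AddCommGroup V) (_ : Module K V) (_ : LieRingModule L V)
      (_ : LieModule K L V), IsIrreducible K L V ∧ FiniteDimensional K V ∧ 2 ≤ finrank K V := by
  classical
  obtain ⟨α, hα⟩ := support_nonempty_of_nontrivial b
  let lam : Dual K H :=
    b.toCoweightBasis.constr K fun i => ((if i.1 = α then 1 else 0 : ℕ) : K)
  have hlam : ∀ i : b.support, lam (crt i.1) = ((if i.1 = α then 1 else 0 : ℕ) : K) := fun i => by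
    rw [show crt i.1 = b.toCoweightBasis i from (b.toCoweightBasis_apply i).symm,
      Basis.constr_basis]
  obtain ⟨V, i₁, i₂, i₃, i₄, hirr, hfin, v, hv⟩ :=
    exists_finiteDimensional_irreducible b lam fun β hβ => ⟨_, hlam ⟨β, hβ⟩⟩
  refine ⟨V, i₁, i₂, i₃, i₄, hirr, hfin, ?_⟩
  obtain ⟨e, f, t, he, hf⟩ := exists_triple α
  have P : t.HasPrimitiveVectorWith v ((1 : ℕ) : K) :=
    { ne_zero := hv.ne_zero
      lie_h := by rw [hv.weight (crt α), hlam ⟨α, hα⟩, if_pos rfl]
      lie_e := hv.raise α (RootPairing.Base.isPos_of_mem_support hα) e he }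
  have hfv : ⁅f, v⁆ ≠ 0 := by
    simpa using P.pow_toEnd_f_ne_zero_of_eq_nat (i := 1) rfl le_rfl
  have hli : LinearIndependent K ![v, ⁅f, v⁆] := by
    rw [LinearIndependent.pair_iff' hv.ne_zero]
    intro c hc
    have h1 := hv.weight.lie hf (crt α)
    rw [← hc, lie_smul, hv.weight (crt α), smul_smul, smul_smul, LinearMap.add_apply, rt_negRoot,
      LinearMap.neg_apply, rt_crt_self] at h1
    have h2 : c * (2 : K) = 0 := by
      have := smul_left_injective K hv.ne_zero h1
      linear_combination this
    rw [mul_eq_zero, or_iff_left two_ne_zero] at h2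
    rw [h2, zero_smul] at hc
    exact hfv hc.symm
  simpa using hli.fintype_card_le_finrank

section Example

open LieAlgebra.SpecialLinear

variable (F : Type*) [Field F] [CharZero F]

/-- The special linear algebra of degree two is semisimple. -/
theorem sl_two_hasTrivialRadical : HasTrivialRadical F (sl (Fin 2) F) := by
  rw [hasTrivialRadical_iff_no_abelian_ideals]
  intro I hI
  rw [eq_bot_iff]
  intro x hx
  have key : ∀ y : sl (Fin 2) F,
      x.1 * (x.1 * y.1 - y.1 * x.1) - (x.1 * y.1 - y.1 * x.1) * x.1 = 0 := fun y => by
    have h : ⁅(⟨x, hx⟩ : I), (⟨⁅x, y⁆, lie_mem_left F _ I x y hx⟩ : I)⁆ = 0 :=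
      trivial_lie_zero _ _ _ _
    exact congrArg (fun z : I => (z : sl (Fin 2) F).1) h
  have hE := key (single 0 1 (by decide) 1)
  have hF := key (single 1 0 (by decide) 1)
  have htr : x.1 0 0 + x.1 1 1 = 0 := by
    have h : Matrix.traceLinearMap (Fin 2) F F x.1 = 0 := x.2
    rwa [Matrix.traceLinearMap_apply, Matrix.trace_fin_two] at h
  have e10 := congrFun (congrFun hE 1) 0
  have f01 := congrFun (congrFun hF 0) 1
  have e01 := congrFun (congrFun hE 0) 1
  simp [Matrix.mul_apply, Fin.sum_univ_two, Matrix.single_apply, mul_sub, sub_mul] at e10 f01 e01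
  have hc : x.1 1 0 = 0 := mul_self_eq_zero.1 (by linear_combination (-1 / 2 : F) * e10)
  have hb : x.1 0 1 = 0 := mul_self_eq_zero.1 (by linear_combination (-1 / 2 : F) * f01)
  rw [hc] at e01
  have hd : x.1 1 1 = -x.1 0 0 := by linear_combination htr
  rw [hd] at e01
  have ha : x.1 0 0 = 0 := mul_self_eq_zero.1 (by linear_combination (1 / 4 : F) * e01)
  rw [LieSubmodule.mem_bot]
  apply Subtype.ext
  ext i j
  fin_cases i <;> fin_cases j <;> simp [ha, hb, hc, hd]

/-- The hypotheses of the classification are met by `sl₂` over an algebraically closed field, so it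
has a nontrivial irreducible module. -/
theorem sl_two_exists_nontrivial_irreducible (F : Type u) [Field F] [CharZero F] [IsAlgClosed F] :
    ∃ (V : Type u) (_ : AddCommGroup V) (_ : Module F V) (_ : LieRingModule (sl (Fin 2) F) V)
      (_ : LieModule F (sl (Fin 2) F) V),
      IsIrreducible F (sl (Fin 2) F) V ∧ FiniteDimensional F V ∧ 2 ≤ finrank F V := by
  have := sl_two_hasTrivialRadical F
  have : Nontrivial (sl (Fin 2) F) :=
    ⟨⟨single 0 1 (by decide) 1, 0, fun h => by
      have := congrArg (fun z : sl (Fin 2) F => z.1 0 1) h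
      simp at this⟩⟩
  obtain ⟨x, hx⟩ := LieAlgebra.exists_isCartanSubalgebra_engel F (sl (Fin 2) F)
  have := hx
  obtain ⟨b⟩ := (rootSystem (LieSubalgebra.engel F x)).nonempty_base
  exact exists_nontrivial_irreducible b

end Example

end FA.HighestWeight
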