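import Fermat.Agent.HighestWeight.Sl2

/-!
# Roots of a split semisimple Lie algebra relative to a base

The height element, positive root vectors and the shift of weights by root vectors.
-/

set_option autoImplicit false
set_option linter.unusedSectionVars false

noncomputable section

namespace FA.HighestWeight

open LieModule Module LieAlgebra LieAlgebra.IsKilling

universe u v

variable {K : Type u} {L : Type v} [Field K] [CharZero K] [LieRing L] [LieAlgebra K L]
  [IsKilling K L] [FiniteDimensional K L]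
  {H : LieSubalgebra K L} [H.IsCartanSubalgebra] [IsTriangularizable K H L]

/-- The functional of a root. -/
def rt (α : H.root) : Dual K H := (rootSystem H).root α

lemma rt_apply (α : H.root) (h : H) : rt α h = α.1 h := rfl

lemma coe_rt (α : H.root) : ⇑(rt α) = (α.1 : H → K) := rfl

/-- The coroot of a root. -/
def crt (α : H.root) : H := coroot α.1

lemma rt_crt_self (α : H.root) : rt α (crt α) = 2 := root_apply_coroot (H.isNonZero_coe_root α)

/-- The opposite root. -/
def negRoot (α : H.root) : H.root := ⟨-α.1, by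
  simp only [LieSubalgebra.root, Finset.mem_filter, Finset.mem_univ, true_and]
  exact (H.isNonZero_coe_root α).neg⟩

lemma rt_negRoot (α : H.root) : rt (negRoot α) = -rt α := by
  ext h
  simp [rt_apply, negRoot]

lemma negRoot_negRoot (α : H.root) : negRoot (negRoot α) = α := Subtype.ext (neg_neg _)

lemma rootSpace_negRoot (α : H.root) :
    rootSpace H ((negRoot α).1 : H → K) = rootSpace H (-(α.1 : H → K)) := rfl

lemma lie_root_vector {α : H.root} {x : L} (hx : x ∈ rootSpace H α.1) (h : H) :
    ⁅(h : L), x⁆ = rt α h • x := lie_eq_smul_of_mem_rootSpace hx h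

/-- A joint eigenvector of the Cartan subalgebra. -/
def HasWeight {M : Type*} [AddCommGroup M] [Module K M] [LieRingModule L M] (μ : Dual K H)
    (v : M) : Prop := ∀ h : H, ⁅(h : L), v⁆ = μ h • v

variable {M : Type*} [AddCommGroup M] [Module K M] [LieRingModule L M] [LieModule K L M]

lemma HasWeight.lie {μ : Dual K H} {v : M} (hv : HasWeight μ v) {α : H.root} {x : L}
    (hx : x ∈ rootSpace H α.1) : HasWeight (μ + rt α) ⁅x, v⁆ := fun h => by
  rw [leibniz_lie, lie_root_vector hx h, hv h, smul_lie, lie_smul, LinearMap.add_apply, add_smul,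
    add_comm]

lemma HasWeight.pow {μ : Dual K H} {v : M} (hv : HasWeight μ v) {α : H.root} {x : L}
    (hx : x ∈ rootSpace H α.1) (n : ℕ) :
    HasWeight (μ + (n : K) • rt α) ((toEnd K L M x ^ n) v) := by
  induction n with
  | zero => simpa using hv
  | succ n ih =>
    rw [toEnd_pow_succ_apply]
    have := ih.lie hx
    rwa [show μ + (n : K) • rt α + rt α = μ + ((n + 1 : ℕ) : K) • rt α by push_cast; module] at this

/-- An element of a space of weight `χ` is zero, or lies in `H`, or is a root vector. -/
lemma rootSpace_cases {χ : H → K} {y : L} (hy : y ∈ rootSpace H χ) :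
    y = 0 ∨ (χ = 0 ∧ y ∈ H) ∨ ∃ γ : H.root, (γ.1 : H → K) = χ := by
  by_cases hb : rootSpace H χ = ⊥
  · left
    rw [hb] at hy
    exact (LieSubmodule.mem_bot y).1 hy
  · right
    rcases eq_or_ne χ 0 with rfl | h0
    · left
      refine ⟨rfl, ?_⟩
      rw [rootSpace_zero_eq] at hy
      exact hy
    · right
      exact ⟨⟨⟨χ, hb⟩, by rw [LieSubalgebra.root, Finset.mem_filter]; exact ⟨Finset.mem_univ _, h0⟩⟩, rfl⟩

lemma lie_mem_rootSpace {χ₁ χ₂ : H → K} {x y : L} (hx : x ∈ rootSpace H χ₁)
    (hy : y ∈ rootSpace H χ₂) : ⁅x, y⁆ ∈ rootSpace H (χ₁ + χ₂) :=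
  lie_mem_genWeightSpace_of_mem_genWeightSpace hx hy

/-- Subspaces containing the Cartan subalgebra and every root space are everything. -/
lemma eq_top_of_cartan_of_rootSpace (p : Submodule K L) (h0 : ∀ h : H, (h : L) ∈ p)
    (hr : ∀ α : H.root, ∀ x ∈ rootSpace H α.1, x ∈ p) : p = ⊤ := by
  have htop : (⨆ χ : H → K, (rootSpace H χ).toSubmodule) = ⊤ :=
    LieSubmodule.iSup_toSubmodule_eq_top.2 (iSup_genWeightSpace_eq_top K H L)
  rw [eq_top_iff, ← htop, iSup_le_iff]
  intro χ y hy
  rcases rootSpace_cases hy with rfl | ⟨-, hyH⟩ | ⟨γ, hγ⟩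
  · exact p.zero_mem
  · exact h0 ⟨y, hyH⟩
  · exact hr γ y (by rw [hγ]; exact hy)

lemma exists_triple (α : H.root) : ∃ e f : L, IsSl2Triple (crt α : L) e f ∧
    e ∈ rootSpace H α.1 ∧ f ∈ rootSpace H (negRoot α).1 := by
  obtain ⟨h, e, f, t, he, hf⟩ := exists_isSl2Triple_of_weight_isNonZero (H.isNonZero_coe_root α)
  obtain rfl := t.h_eq_coroot (H.isNonZero_coe_root α) he hf
  exact ⟨e, f, t, he, hf⟩

lemma rootSpace_smul_of_mem {α : H.root} {x y : L} (hx : x ∈ rootSpace H α.1) (hx0 : x ≠ 0)
    (hy : y ∈ rootSpace H α.1) : ∃ c : K, y = c • x := by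
  obtain ⟨c, hc⟩ := (finrank_eq_one_iff_of_nonzero' (⟨x, hx⟩ : rootSpace H (α.1 : H → K))
    (by simpa using hx0)).1 (finrank_rootSpace_eq_one _ (H.isNonZero_coe_root α)) ⟨y, hy⟩
  exact ⟨c, (Subtype.ext_iff.1 hc).symm⟩

/-- A root vector. -/
def rootVec (α : H.root) : L := (exists_triple α).choose

lemma rootVec_mem (α : H.root) : rootVec α ∈ rootSpace H α.1 :=
  (exists_triple α).choose_spec.choose_spec.2.1

lemma rootVec_ne_zero (α : H.root) : rootVec α ≠ 0 :=
  (exists_triple α).choose_spec.choose_spec.1.e_ne_zero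

lemma exists_smul_rootVec {α : H.root} {x : L} (hx : x ∈ rootSpace H α.1) :
    ∃ c : K, x = c • rootVec α :=
  rootSpace_smul_of_mem (rootVec_mem α) (rootVec_ne_zero α) hx

variable (b : (rootSystem H).Base)

/-- The element of the Cartan subalgebra on which every root takes its height. -/
def heightElt : H :=
  (Module.evalEquiv K H).symm ((b.toWeightBasis).constr K fun _ => (1 : K))

lemma apply_heightElt_of_mem {α : H.root} (hα : α ∈ b.support) : rt α (heightElt b) = 1 := by
  have h : rt α = b.toWeightBasis ⟨α, hα⟩ := (b.toWeightBasis_apply ⟨α, hα⟩).symm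
  rw [heightElt, Module.apply_evalEquiv_symm_apply, h, Basis.constr_basis]

lemma apply_heightElt (α : H.root) : rt α (heightElt b) = (b.height α : K) := by
  obtain ⟨f, -, -, hf⟩ := b.exists_root_eq_sum_int α
  rw [b.height_eq_sum hf, Int.cast_sum, rt, hf, LinearMap.sum_apply]
  refine Finset.sum_congr rfl fun j hj => ?_
  rw [LinearMap.smul_apply, show (rootSystem H).root j (heightElt b) = 1 from
    apply_heightElt_of_mem b hj, zsmul_eq_mul, mul_one]

lemma height_negRoot (α : H.root) : b.height (negRoot α) = -b.height α := by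
  have : ((b.height (negRoot α) : ℤ) : K) = ((-b.height α : ℤ) : K) := by
    rw [← apply_heightElt, rt_negRoot, LinearMap.neg_apply, apply_heightElt, Int.cast_neg]
  exact_mod_cast this

lemma isPos_negRoot_iff (α : H.root) : b.IsPos (negRoot α) ↔ ¬ b.IsPos α := by
  rw [RootPairing.Base.isPos_iff, RootPairing.Base.isPos_iff, height_negRoot]
  have := b.height_ne_zero α
  omega

lemma exists_height_pos {α : H.root} (hα : b.IsPos α) :
    ∃ n : ℕ, 0 < n ∧ rt α (heightElt b) = (n : K) := by
  have h := (RootPairing.Base.isPos_iff b).1 hα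
  lift b.height α to ℕ using h.le with n hn
  exact ⟨n, by exact_mod_cast h, by rw [apply_heightElt, ← hn, Int.cast_natCast]⟩

/-- Subtracting a simple root from another positive root leaves a positive root, or nothing. -/
lemma rootSpace_sub_simple {α β : H.root} (hα : α ∈ b.support) (hβ : b.IsPos β) (hne : β ≠ α)
    {y : L} (hy : y ∈ rootSpace H ((β.1 : H → K) + (negRoot α).1)) :
    y = 0 ∨ ∃ γ : H.root, b.IsPos γ ∧ γ ≠ α ∧ y ∈ rootSpace H γ.1 := by
  rcases rootSpace_cases hy with h | ⟨h0, -⟩ | ⟨γ, hγ⟩
  · exact Or.inl h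
  · exfalso
    refine hne ((rootSystem H).root.injective (LinearMap.ext fun z => ?_))
    have := congr_fun h0 z
    rw [Pi.add_apply, Pi.zero_apply, show ((negRoot α).1 : H → K) z = -(α.1 z) from rfl,
      add_neg_eq_zero] at this
    exact this
  · refine Or.inr ⟨γ, hβ.sub hα (LinearMap.ext fun z => ?_), ?_, by rwa [hγ]⟩
    · have := congr_fun hγ z
      rw [Pi.add_apply, show ((negRoot α).1 : H → K) z = -(α.1 z) from rfl] at this
      exact this.trans (sub_eq_add_neg _ _).symm
    · rintro rfl
      have h2 : rootSpace H (2 • (γ.1 : H → K)) = ⊥ := rootSpace_two_smul _ (H.isNonZero_coe_root γ)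
      apply β.1.genWeightSpace_ne_bot
      rwa [show (β.1 : H → K) = 2 • (γ.1 : H → K) by
        funext z
        have := congr_fun hγ z
        rw [Pi.add_apply, show ((negRoot γ).1 : H → K) z = -(γ.1 z) from rfl] at this
        rw [Pi.smul_apply, nsmul_eq_mul]
        push_cast
        linear_combination -this]

lemma crt_mem_span (α : H.root) :
    crt α ∈ Submodule.span ℤ (crt '' (b.support : Set H.root)) := b.coroot_mem_span_int α

lemma span_crt_support : Submodule.span K (crt '' (b.support : Set H.root)) = ⊤ := by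
  have h := b.span_coroot_support
  rw [RootPairing.corootSpan, RootPairing.IsRootSystem.span_coroot_eq_top] at h
  exact h

lemma eq_of_forall_crt {μ ν : Dual K H} (h : ∀ α ∈ b.support, μ (crt α) = ν (crt α)) : μ = ν :=
  LinearMap.ext_on (span_crt_support b) (by rintro _ ⟨α, hα, rfl⟩; exact h α hα)

end FA.HighestWeight
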