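import Mathlib

/-!
# Operators of `sl₂` on modules

Graded operators on a finite-dimensional space are jointly nilpotent, the kernel of `e` in a module
on which `f` is nilpotent contains an eigenvector of `h` with natural eigenvalue, and a vector of
natural eigenvalue `m` in a locally nilpotent module can be pushed down `m` steps.
-/

set_option autoImplicit false

noncomputable section

namespace FA.HighestWeight

open LieModule Module

attribute [local instance 100] LieRing.ofAssociativeRing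

section Graded

variable {K V : Type*} [Field K] [CharZero K] [AddCommGroup V] [Module K V] [FiniteDimensional K V]

/-- Operators of positive degree for some operator have vanishing long products. -/
lemma exists_prod_eq_zero (D : Module.End K V) :
    ∃ N : ℕ, ∀ l : List (Module.End K V),
      (∀ T ∈ l, ∃ n : ℕ, 0 < n ∧ D * T - T * D = (n : K) • T) → N ≤ l.length → l.prod = 0 := by
  classical
  set A : Module.End K (Module.End K V) := LinearMap.mulLeft K D - LinearMap.mulRight K D
  have hfin : {n : ℕ | A.HasEigenvalue (n : K)}.Finite :=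
    (A.finite_hasEigenvalue.preimage Nat.cast_injective.injOn)
  obtain ⟨N, hN⟩ := hfin.bddAbove
  refine ⟨N + 1, fun l hl hlen => ?_⟩
  have key : ∃ m : ℕ, l.length ≤ m ∧ A l.prod = (m : K) • l.prod := by
    clear hlen
    induction l with
    | nil => exact ⟨0, le_rfl, by simp [A]⟩
    | cons T l ih =>
      obtain ⟨n, hn, hT⟩ := hl T (by simp)
      obtain ⟨m, hm, hA⟩ := ih fun T' hT' => hl T' (by simp [hT'])
      refine ⟨n + m, by simp; omega, ?_⟩
      simp only [A, LinearMap.sub_apply, LinearMap.mulLeft_apply, LinearMap.mulRight_apply]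
        at hA ⊢
      rw [List.prod_cons, ← mul_assoc, sub_eq_iff_eq_add.1 hT, add_mul, smul_mul_assoc, mul_assoc,
        mul_assoc, sub_eq_iff_eq_add.1 hA, mul_add, mul_smul_comm, Nat.cast_add, add_smul]
      abel
  obtain ⟨m, hm, hA⟩ := key
  by_contra h0
  have : m ∈ {n : ℕ | A.HasEigenvalue (n : K)} :=
    Module.End.hasEigenvalue_of_hasEigenvector
      (Module.End.hasEigenvector_iff.2 ⟨Module.End.mem_eigenspace_iff.2 hA, h0⟩)
  exact absurd (hN this) (by omega)

end Graded

variable {K L M : Type*} [Field K] [CharZero K] [LieRing L] [LieAlgebra K L] [AddCommGroup M]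
  [Module K M] [LieRingModule L M] [LieModule K L M]

omit [CharZero K] in
lemma toEnd_pow_succ_apply (x : L) (n : ℕ) (v : M) :
    (toEnd K L M x ^ (n + 1)) v = ⁅x, (toEnd K L M x ^ n) v⁆ := by
  rw [pow_succ', Module.End.mul_apply, toEnd_apply_apply]

omit [CharZero K] in
lemma toEnd_pow_succ_apply' (x : L) (n : ℕ) (v : M) :
    (toEnd K L M x ^ (n + 1)) v = (toEnd K L M x ^ n) ⁅x, v⁆ := by
  rw [pow_succ, Module.End.mul_apply, toEnd_apply_apply]

omit [CharZero K] in
lemma toEnd_pow_eq_zero_of_le {x : L} {v : M} {a b : ℕ} (h : (toEnd K L M x ^ a) v = 0)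
    (hab : a ≤ b) : (toEnd K L M x ^ b) v = 0 := by
  obtain ⟨c, rfl⟩ := Nat.exists_eq_add_of_le hab
  rw [add_comm, pow_add, Module.End.mul_apply, h, map_zero]

omit [CharZero K] in
/-- If `ad x` is nilpotent on `y` and `x` on `v`, then `x` is nilpotent on `⁅y, v⁆`. -/
lemma pow_lie_eq_zero (x : L) (a b : ℕ) (y : L) (v : M) (hy : (toEnd K L L x ^ a) y = 0)
    (hv : (toEnd K L M x ^ b) v = 0) : (toEnd K L M x ^ (a + b)) ⁅y, v⁆ = 0 := by
  induction a generalizing b y v with
  | zero =>
    rw [pow_zero, Module.End.one_apply] at hy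
    rw [hy, zero_lie, map_zero]
  | succ a iha =>
    induction b generalizing v with
    | zero =>
      rw [pow_zero, Module.End.one_apply] at hv
      rw [hv, lie_zero, map_zero]
    | succ b ihb =>
      have h1 : (toEnd K L M x ^ (a + (b + 1))) ⁅⁅x, y⁆, v⁆ = 0 :=
        iha (b + 1) ⁅x, y⁆ v (by rw [← toEnd_pow_succ_apply']; exact hy) hv
      have h2 : (toEnd K L M x ^ (a + 1 + b)) ⁅y, ⁅x, v⁆⁆ = 0 :=
        ihb ⁅x, v⁆ (by rw [← toEnd_pow_succ_apply']; exact hv)
      rw [show a + 1 + (b + 1) = a + (b + 1) + 1 by omega, toEnd_pow_succ_apply', leibniz_lie,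
        map_add, h1, show a + (b + 1) = a + 1 + b by omega, h2, add_zero]

/-- The vectors on which an `ad`-nilpotent element acts nilpotently form a submodule. -/
def nilSubmodule (x : L) (hx : ∀ y : L, ∃ a, (toEnd K L L x ^ a) y = 0) : LieSubmodule K L M where
  carrier := {v | ∃ n, (toEnd K L M x ^ n) v = 0}
  add_mem' := by
    rintro u v ⟨a, ha⟩ ⟨b, hb⟩
    exact ⟨max a b, by rw [map_add, toEnd_pow_eq_zero_of_le ha (le_max_left a b),
      toEnd_pow_eq_zero_of_le hb (le_max_right a b), add_zero]⟩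
  zero_mem' := ⟨0, map_zero _⟩
  smul_mem' := by
    rintro c v ⟨a, ha⟩
    exact ⟨a, by rw [map_smul, ha, smul_zero]⟩
  lie_mem := by
    rintro y v ⟨b, hb⟩
    obtain ⟨a, ha⟩ := hx y
    exact ⟨a + b, pow_lie_eq_zero x a b y v ha hb⟩

/-- The product `(h - 0) ⋯ (h - (k - 1))`. -/
def fallingOp (K : Type*) {L : Type*} (M : Type*) [Field K] [LieRing L] [LieAlgebra K L]
    [AddCommGroup M] [Module K M] [LieRingModule L M] [LieModule K L M] (h : L) :
    ℕ → Module.End K M
  | 0 => 1
  | k + 1 => fallingOp K M h k * (toEnd K L M h - (k : K) • 1)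

variable {h e f : L}

omit [CharZero K] in
lemma lie_e_f_pow (t : IsSl2Triple h e f) (n : ℕ) {y : M} (hy : ⁅e, y⁆ = 0) :
    ⁅e, (toEnd K L M f ^ (n + 1)) y⁆ =
      ((n : K) + 1) • (toEnd K L M f ^ n) (⁅h, y⁆ - (n : K) • y) := by
  have hh : ∀ m : ℕ, ⁅h, (toEnd K L M f ^ m) y⁆ =
      (toEnd K L M f ^ m) ⁅h, y⁆ - (2 * (m : K)) • (toEnd K L M f ^ m) y := by
    intro m
    induction m with
    | zero => simp
    | succ m ih =>
      rw [toEnd_pow_succ_apply, leibniz_lie h f, ih, lie_sub, lie_smul, ← toEnd_pow_succ_apply,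
        t.lie_lie_smul_f K, neg_lie, smul_lie, ← toEnd_pow_succ_apply, Nat.cast_succ]
      module
  induction n with
  | zero =>
    rw [toEnd_pow_succ_apply, pow_zero, Module.End.one_apply, leibniz_lie e f, t.lie_e_f, hy,
      lie_zero]
    simp
  | succ n ih =>
    rw [toEnd_pow_succ_apply, leibniz_lie e f, t.lie_e_f, hh, ih, lie_smul, ← toEnd_pow_succ_apply,
      map_sub, map_sub, map_smul, map_smul, Nat.cast_succ]
    module

omit [CharZero K] in
lemma e_pow_f_pow (t : IsSl2Triple h e f) (k : ℕ) {y : M} (hy : ⁅e, y⁆ = 0) :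
    (toEnd K L M e ^ k) ((toEnd K L M f ^ k) y) = (k.factorial : K) • fallingOp K M h k y := by
  induction k generalizing y with
  | zero => simp [fallingOp]
  | succ k ih =>
    have hy' : ⁅e, ⁅h, y⁆ - (k : K) • y⁆ = 0 := by
      rw [lie_sub, lie_smul, leibniz_lie e h, hy, lie_zero, ← lie_skew, t.lie_h_e_smul K, neg_lie,
        smul_lie, hy]
      simp
    rw [toEnd_pow_succ_apply', lie_e_f_pow t k hy, map_smul, ih hy', fallingOp,
      Module.End.mul_apply, Nat.factorial_succ, smul_smul]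
    simp [LinearMap.sub_apply, LinearMap.smul_apply]

/-- A nonzero subspace killed by `e`, stable under `h`, on which `f` is nilpotent, contains an
eigenvector of `h` with natural eigenvalue. -/
lemma exists_nat_eigen (t : IsSl2Triple h e f) (S : Submodule K M) (hne : S ≠ ⊥)
    (hS : ∀ y ∈ S, ⁅h, y⁆ ∈ S) (he : ∀ y ∈ S, ⁅e, y⁆ = 0)
    (hf : ∀ y ∈ S, ∃ k, (toEnd K L M f ^ k) y = 0) :
    ∃ n : ℕ, ∃ z ∈ S, z ≠ 0 ∧ ⁅h, z⁆ = (n : K) • z := by
  suffices key : ∀ k, ∀ y ∈ S, y ≠ 0 → fallingOp K M h k y = 0 →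
      ∃ n : ℕ, ∃ z ∈ S, z ≠ 0 ∧ ⁅h, z⁆ = (n : K) • z by
    obtain ⟨y, hy, hy0⟩ := S.exists_mem_ne_zero_of_ne_bot hne
    obtain ⟨k, hk⟩ := hf y hy
    refine key k y hy hy0 ?_
    have := e_pow_f_pow (K := K) t k (he y hy)
    rw [hk, map_zero, eq_comm, smul_eq_zero] at this
    exact this.resolve_left (Nat.cast_ne_zero.2 k.factorial_ne_zero)
  intro k
  induction k with
  | zero =>
    intro y _ hy0 h0
    exact absurd (by simpa [fallingOp] using h0) hy0
  | succ k ih =>
    intro y hy hy0 h0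
    by_cases h1 : ⁅h, y⁆ = (k : K) • y
    · exact ⟨k, y, hy, hy0, h1⟩
    · exact ih _ (S.sub_mem (hS y hy) (S.smul_mem _ hy)) (sub_ne_zero.2 h1)
        (by simpa [fallingOp] using h0)

/-- Pushing a vector of natural eigenvalue `m` down `m` steps. -/
lemma exists_push_down (t : IsSl2Triple h e f) (he : ∀ v : M, ∃ n, (toEnd K L M e ^ n) v = 0)
    {x : M} {m : ℕ} (hx : x ≠ 0)
    (hh : ⁅h, x⁆ = (m : K) • x) :
    ∃ k : ℕ, (toEnd K L M f ^ (m + k)) ((toEnd K L M e ^ k) x) ≠ 0 := by
  obtain ⟨k, hk, hk'⟩ := Nat.exists_not_and_succ_of_not_zero_of_exists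
    (p := fun n => (toEnd K L M e ^ n) x = 0) (by simpa using hx) (he x)
  have P : t.HasPrimitiveVectorWith ((toEnd K L M e ^ k) x) ((m + 2 * k : ℕ) : K) :=
    { ne_zero := hk
      lie_h := by rw [t.lie_h_pow_toEnd_e hh k]; push_cast; rfl
      lie_e := by rw [← toEnd_pow_succ_apply]; exact hk' }
  exact ⟨k, P.pow_toEnd_f_ne_zero_of_eq_nat rfl (by omega)⟩

end FA.HighestWeight
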